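import Fermat.Agent.ES.BaseChangeDown
import Fermat.Agent.ES1.RealBCuFin

/-!
# ES₁ / G1, piece BCd: places of `fieldC ℂ L M H` restrict to places of `fieldBar L M H`
(helper82)

`ι = iotaH L M H : fieldBar L M H → fieldC ℂ L M H` the coefficientwise embedding.

* `es1r_bcd` : every place `w` of `fieldC ℂ L M H` is trivial on `ι (fieldBar L M H)`, or there
  are a place `v` of `fieldBar L M H` and `e > 0` with `w.ord (ι f) = e * v.ord f` for all `f`
  (instance of the generic `ES.place_restrict_along`);
* `es1r_bcd_dvd` : if `n ∣ v.ord u` for all places `v` of `fieldBar L M H`, then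
  `n ∣ w.ord (ι u)` for all places `w` of `fieldC ℂ L M H`.
(The converse direction BCu is `stmtRealBCu`, `es1r_bcu_dvd` in `ES1/RealBCuFin.lean`.)
-/

set_option autoImplicit false

noncomputable section

namespace Fermat.Agent.ES1

open AlgebraicCurve ModularCurve IntermediateField Fermat.Agent.S24 Fermat.Agent.ES

attribute [local instance] algKbC

variable (L M : ℕ) (H : Subgroup (ZMod M)ˣ)

/-- **BCd**: a place of `fieldC ℂ L M H` is trivial on `fieldBar L M H` or restricts to a place
of `fieldBar L M H`. -/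
theorem es1r_bcd (w : Place ℂ (fieldC ℂ L M H)) :
    (∀ f : fieldBar L M H, w.ord (iotaH L M H f) = 0) ∨
      ∃ (v : Place Kb (fieldBar L M H)) (e : ℤ), 0 < e ∧
        ∀ f : fieldBar L M H, w.ord (iotaH L M H f) = e * v.ord f :=
  place_restrict_along (iotaH L M H) embC (iotaH_algebraMap L M H) w

/-- Divisibility of orders ascends from `fieldBar L M H` to `fieldC ℂ L M H`. -/
theorem es1r_bcd_dvd (n : ℤ) (u : fieldBar L M H)
    (h : ∀ v : Place Kb (fieldBar L M H), n ∣ v.ord u) (w : Place ℂ (fieldC ℂ L M H)) :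
    n ∣ w.ord (iotaH L M H u) := by
  rcases es1r_bcd L M H w with h0 | ⟨v, e, -, hv⟩
  · rw [h0 u]
    exact dvd_zero n
  · rw [hv u]
    exact Dvd.dvd.mul_left (h v) e

end Fermat.Agent.ES1
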