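import Fermat.Agent.ES1.RCGamma
import Fermat.Agent.ES1.RealDefs
import Fermat.Agent.ES1.HeckeGrp
import Fermat.Agent.ES1.G2.DiamBar
import Fermat.Agent.ES.Multiplier

/-!
# ES₁ / G1-DM — the diamond automorphism is `f ↦ f ∘ σ` analytically (captain helper36)

`Γ = gammaH L M H`, `σ ∈ Γ₀(L) ∩ Γ₀(M)` with `diamHom M σ = c`, `δ` the diamond automorphism `⟨c⟩`
of `fieldBar L M H` (`G2.IsDiamondH L M H c δ`).

* `es1g1dmComp` : `f ↦ f ∘ σ` on the ring of modular functions for `Γ`;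
* `es1g1dmPsi` : the induced ring homomorphism `fieldC ℂ L M H → ℂ((q))`;
* `es1g1dm_psi_iota` : `Ψ (ι u) = ι (δ u)` for `u ∈ fieldBar L M H`;
* `es1g1dm_core` : if `ι u · laurentOf g = laurentOf a` then
  `ι (δ u) · laurentOf (g ∘ σ) = laurentOf (a ∘ σ)`;
* `es1g1dmRoot` : `R ↦ R ∘ σ` on root data, with multiplier `diamGrp σ χ`.
-/

set_option autoImplicit false

noncomputable section

namespace Fermat.Agent.ES1

open UpperHalfPlane ModularForm CongruenceSubgroup ModularCurve AlgebraicCurve HahnSeries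
open Fermat.Agent.S23 Fermat.Agent.S24 Fermat.Agent.S28 Fermat.Agent.ES Fermat.Agent.ES.RC
open Fermat.Agent.ES1.G2
open scoped MatrixGroups

section Comp

variable {L M : ℕ} [NeZero L] (hML : M ∣ L) (H : Subgroup (ZMod M)ˣ)
  (σ : SL(2, ℤ)) (hσL : σ ∈ Gamma0 L) (hσM : σ ∈ Gamma0 M)

include hML hσL hσM in
theorem es1g1dm_isModFunG_comp {f : ℍ → ℂ} (hf : IsModFunG (gammaH L M H) f) :
    IsModFunG (gammaH L M H) (fun z => f (σ • z)) := by
  haveI := es1rc_finiteIndex hML H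
  exact hf.comp_normalizer σ fun γ hγ => conj_mem_gammaH hσL hσM hγ

/-- `f ↦ f ∘ σ` on the modular functions for `Γ` -/
def es1g1dmComp : modFunAlgG (gammaH L M H) →+* modFunAlgG (gammaH L M H) where
  toFun f := ⟨fun z => (f : ℍ → ℂ) (σ • z), es1g1dm_isModFunG_comp hML H σ hσL hσM f.2⟩
  map_one' := rfl
  map_mul' _ _ := rfl
  map_zero' := rfl
  map_add' _ _ := rfl

@[simp]
theorem es1g1dmComp_apply (f : modFunAlgG (gammaH L M H)) (z : ℍ) :
    ((es1g1dmComp hML H σ hσL hσM f : modFunAlgG (gammaH L M H)) : ℍ → ℂ) z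
      = (f : ℍ → ℂ) (σ • z) := rfl

theorem es1g1dmComp_injective : Function.Injective (es1g1dmComp hML H σ hσL hσM) := by
  intro f g h
  apply Subtype.ext
  funext z
  have h1 := congrFun (congrArg Subtype.val h) (σ⁻¹ • z)
  simpa [es1g1dmComp, smul_smul] using h1

/-- the ring homomorphism `modFunAlgG Γ → ℂ((q))`, `f ↦ laurentOf (f ∘ σ)` -/
def es1g1dmPre : modFunAlgG (gammaH L M H) →+* LaurentSeries ℂ :=
  ((fieldC ℂ L M H).val.toRingHom.comp (es1rcToField hML H).toRingHom).comp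
    (es1g1dmComp hML H σ hσL hσM)

theorem es1g1dmPre_apply (f : modFunAlgG (gammaH L M H)) :
    es1g1dmPre hML H σ hσL hσM f = laurentOf (fun z => (f : ℍ → ℂ) (σ • z)) := rfl

theorem es1g1dmPre_injective : Function.Injective (es1g1dmPre hML H σ hσL hσM) := by
  intro f g h
  apply es1g1dmComp_injective hML H σ hσL hσM
  apply es1rcToField_injective hML H
  exact Subtype.ext h

/-- **the analytic diamond** `Ψ_σ : fieldC ℂ L M H → ℂ((q))`, extending `f ↦ f ∘ σ` -/
def es1g1dmPsi : fieldC ℂ L M H →+* LaurentSeries ℂ :=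
  letI := es1rcAlgebra hML H
  haveI := es1rc_isFractionRing hML H
  IsFractionRing.lift (A := modFunAlgG (gammaH L M H)) (K := fieldC ℂ L M H)
    (g := es1g1dmPre hML H σ hσL hσM) (es1g1dmPre_injective hML H σ hσL hσM)

theorem es1g1dmPsi_laurentOf {f : ℍ → ℂ} (hf : IsModFunG (gammaH L M H) f) :
    es1g1dmPsi hML H σ hσL hσM ⟨laurentOf f, es1rc_laurentOf_mem_fieldC hML H hf⟩
      = laurentOf (fun z => f (σ • z)) := by
  letI := es1rcAlgebra hML H
  haveI := es1rc_isFractionRing hML H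
  have h := IsFractionRing.lift_algebraMap (A := modFunAlgG (gammaH L M H))
    (K := fieldC ℂ L M H) (es1g1dmPre_injective hML H σ hσL hσM) ⟨f, hf⟩
  exact h

/-- `Ψ_σ` on the elements of `fieldC ℂ L M H` which are expansions of modular functions -/
theorem es1g1dmPsi_of_eq {f : ℍ → ℂ} (hf : IsModFunG (gammaH L M H) f) (x : fieldC ℂ L M H)
    (hx : (x : LaurentSeries ℂ) = laurentOf f) :
    es1g1dmPsi hML H σ hσL hσM x = laurentOf (fun z => f (σ • z)) := by
  have : x = ⟨laurentOf f, es1rc_laurentOf_mem_fieldC hML H hf⟩ := Subtype.ext hx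
  rw [this]
  exact es1g1dmPsi_laurentOf hML H σ hσL hσM hf

/-- **`Ψ_σ ∘ ι = ι ∘ δ`**: the diamond automorphism `⟨c⟩`, `c = ⟨σ⟩`, is `f ↦ f ∘ σ`. -/
theorem es1g1dm_psi_iota {c : (ZMod M)ˣ} (hc : diamHom M ⟨σ, hσM⟩ = c)
    {δ : fieldBar L M H ≃ₐ[QbH] fieldBar L M H} (hδ : IsDiamondH L M H c δ)
    (u : fieldBar L M H) :
    es1g1dmPsi hML H σ hσL hσM (iotaH L M H u)
      = coeffMap embC ((δ u : fieldBar L M H) : LaurentSeries Kb) := by
  have hMne : NeZero M := es1rc_neZero_of_dvd hML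
  have key : (es1g1dmPsi hML H σ hσL hσM).comp (iotaH L M H)
      = ((coeffMap embC).comp (fieldBar L M H).val.toRingHom).comp
          (δ : fieldBar L M H →+* fieldBar L M H) := by
    refine diamb_ringHom_ext L M H _ _ (fun a => ?_) (fun d _ hd x hx => ?_)
      (fun e _ a he x hx => ?_)
    · -- constants
      show es1g1dmPsi hML H σ hσL hσM (iotaH L M H (algebraMap QbH (fieldBar L M H) a))
        = coeffMap embC ((δ (algebraMap QbH (fieldBar L M H) a) : fieldBar L M H) :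
            LaurentSeries Kb)
      rw [δ.commutes]
      have h1 : ((iotaH L M H (algebraMap QbH (fieldBar L M H) a) : fieldC ℂ L M H) :
          LaurentSeries ℂ) = laurentOf (fun _ : ℍ => embC a) := by
        rw [iotaH_algebraMap, laurentOf_const]
        show algebraMap ℂ (LaurentSeries ℂ) (embC a) = HahnSeries.C (embC a)
        exact Deriv.algebraMap_eq_C _
      rw [es1g1dmPsi_of_eq hML H σ hσL hσM (isModFunG_const _ (embC a)) _ h1]
      exact h1.symm
    · -- `j(q^d)`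
      show es1g1dmPsi hML H σ hσL hσM (iotaH L M H x)
        = coeffMap embC ((δ x : fieldBar L M H) : LaurentSeries Kb)
      rw [hδ.fix_j d hd x hx]
      have h1 : ((iotaH L M H x : fieldC ℂ L M H) : LaurentSeries ℂ)
          = laurentOf (fun z => Jfun (scaleN d z)) := by
        rw [iotaH_coe, hx, laurentOf_Jfun_scaleN]
        exact coeffMap_jqNModC embC d
      have hJ : IsModFunG (gammaH L M H) (fun z => Jfun (scaleN d z)) :=
        es1rc_isModFunG_of_gamma0 H (rc_isModFun_Jfun_scaleN hd)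
      rw [es1g1dmPsi_of_eq hML H σ hσL hσM hJ _ h1]
      have h2 : (fun z => Jfun (scaleN d (σ • z))) = fun z => Jfun (scaleN d z) := by
        funext z
        have h3 : IsModFunG (Gamma0 L) (fun z => Jfun (scaleN d z)) :=
          (isModFunG_gamma0_iff L _).mpr (rc_isModFun_Jfun_scaleN hd)
        exact h3.comp_smul hσL z
      rw [h2]
      exact h1.symm
    · -- `S_a(q^e)`
      show es1g1dmPsi hML H σ hσL hσM (iotaH L M H x)
        = coeffMap embC ((δ x : fieldBar L M H) : LaurentSeries Kb)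
      rw [hδ.map_s e a he x hx]
      have h1 : ((iotaH L M H x : fieldC ℂ L M H) : LaurentSeries ℂ)
          = laurentOf (es1rcThetaE e H a) := by
        rw [iotaH_coe, hx, laurentOf_es1rcThetaE]
        exact es1f_coeffMap_qExpand_sS embC M H a e
      rw [es1g1dmPsi_of_eq hML H σ hσL hσM (es1rcThetaE_isModFunG H a e he) _ h1]
      have h2 : (fun z => es1rcThetaE e H a (σ • z)) = es1rcThetaE e H (a * c) := by
        funext z
        rw [es1rcThetaE_smul_of_mem H a e he σ hσL hσM z, hc]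
      rw [h2, laurentOf_es1rcThetaE]
      exact (es1f_coeffMap_qExpand_sS embC M H (a * c) e).symm
  exact congrArg (fun φ : fieldBar L M H →+* LaurentSeries ℂ => φ u) key

include hML hσL in
/-- **G1-DM, analytic core**: if `ι u = laurentOf a / laurentOf g` then
`ι (δ u) = laurentOf (a ∘ σ) / laurentOf (g ∘ σ)`. -/
theorem es1g1dm_core {c : (ZMod M)ˣ} (hc : diamHom M ⟨σ, hσM⟩ = c)
    {δ : fieldBar L M H ≃ₐ[QbH] fieldBar L M H} (hδ : IsDiamondH L M H c δ)
    (u : fieldBar L M H) {a g : ℍ → ℂ} (ha : IsModFunG (gammaH L M H) a)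
    (hg : IsModFunG (gammaH L M H) g)
    (h : coeffMap embC (u : LaurentSeries Kb) * laurentOf g = laurentOf a) :
    coeffMap embC ((δ u : fieldBar L M H) : LaurentSeries Kb) * laurentOf (fun z => g (σ • z))
      = laurentOf (fun z => a (σ • z)) := by
  have h1 : iotaH L M H u * ⟨laurentOf g, es1rc_laurentOf_mem_fieldC hML H hg⟩
      = ⟨laurentOf a, es1rc_laurentOf_mem_fieldC hML H ha⟩ := Subtype.ext h
  have h2 := congrArg (es1g1dmPsi hML H σ hσL hσM) h1
  rw [map_mul, es1g1dm_psi_iota hML H σ hσL hσM hc hδ,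
    es1g1dmPsi_laurentOf hML H σ hσL hσM hg, es1g1dmPsi_laurentOf hML H σ hσL hσM ha] at h2
  exact h2

end Comp

/-! ## Root data -/

section Root

variable {Γ : Subgroup SL(2, ℤ)} {n : ℕ}

/-- composition of a root datum with `σ` normalising `Γ` -/
def es1g1dmRoot (R : RootData Γ n) (σ : SL(2, ℤ)) (hσ : ∀ γ ∈ Γ, σ * γ * σ⁻¹ ∈ Γ) :
    RootData Γ n where
  a := fun z => R.a (σ • z)
  g := fun z => R.g (σ • z)
  p_ne_zero := R.p_ne_zero
  mdiff_a := mdiff_comp_SL R.mdiff_a σ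
  mdiff_g := mdiff_comp_SL R.mdiff_g σ
  a_ne_zero := fun h => R.a_ne_zero (by
    funext z
    have := congrFun h (σ⁻¹ • z)
    simpa [smul_smul] using this)
  g_ne_zero := fun h => R.g_ne_zero (by
    funext z
    have := congrFun h (σ⁻¹ • z)
    simpa [smul_smul] using this)
  pow_inv := fun γ hγ τ => by
    have h := R.pow_inv (σ * γ * σ⁻¹) (hσ γ hγ) (σ • τ)
    have h4 : (σ * γ * σ⁻¹) • (σ • τ) = σ • (γ • τ) := by
      rw [← mul_smul, ← mul_smul]
      congr 1
      group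
    rw [h4] at h
    exact h

theorem es1g1dmRoot_mult (R : RootData Γ n) (σ : SL(2, ℤ)) (hσ : ∀ γ ∈ Γ, σ * γ * σ⁻¹ ∈ Γ)
    (γ : Γ) : (es1g1dmRoot R σ hσ).mult γ = R.mult ⟨σ * γ * σ⁻¹, hσ γ γ.2⟩ := by
  rw [RootData.mult_eq_iff]
  intro τ
  have h := R.mult_spec ⟨σ * γ * σ⁻¹, hσ γ γ.2⟩ (σ • τ)
  have h4 : (σ * (γ : SL(2, ℤ)) * σ⁻¹) • (σ • τ) = σ • ((γ : SL(2, ℤ)) • τ) := by
    rw [← mul_smul, ← mul_smul]
    congr 1
    group
  simp only [] at h
  rw [h4] at h
  exact h

/-- the multiplier of `R ∘ σ` is `diamGrp σ` of the multiplier of `R` -/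
theorem es1g1dmRoot_multAdd {L M : ℕ} {H : Subgroup (ZMod M)ˣ} (R : RootData (gammaH L M H) n)
    (σ : SL(2, ℤ)) (hσL : σ ∈ Gamma0 L) (hσM : σ ∈ Gamma0 M) :
    (es1g1dmRoot R σ fun _ hγ => conj_mem_gammaH hσL hσM hγ).multAdd
      = diamGrp L M H σ hσL hσM R.multAdd := by
  refine DFunLike.ext _ _ fun γ => ?_
  obtain ⟨γ, rfl⟩ : ∃ g : gammaH L M H, Additive.ofMul g = γ := ⟨Additive.toMul γ, rfl⟩
  rw [diamGrp_apply, RootData.multAdd_apply, RootData.multAdd_apply, es1g1dmRoot_mult]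

end Root

end Fermat.Agent.ES1
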