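import Fermat.Agent.ES.HeckeKummer
import Fermat.Agent.ES1.HInputs
import Fermat.Agent.ES1.G2.Plan

/-!
# ES₁ / G1, piece HKa: Kummer functions of `T_ℓ x` and of `⟨c⟩ x` (helper82)

`x = [D] ∈ JH L M H`, `n · D = div u` (`KummerRel n x u`, `ES/KummerBridge.lean`).  Then

* `es1h_kummerRel_hecke` : `N_α (β u)` is a Kummer function of `T_ℓ x = es1hHecke L M H ℓ x`
  (`es1hNormFun L M H ℓ u = N_α (β u)`, norm of `u(q^ℓ)` from level `L ℓ` down to level `L`);
* `es1h_kummerRel_diamond` : `δ u` is a Kummer function of `diamondJ δ x`, for every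
  `ℚ̄`-automorphism `δ` of `fieldBar L M H`;
* `es1h_kummerRel_galois` : `σ u` is a Kummer function of `σ • x`.
-/

set_option autoImplicit false
set_option linter.style.haveILetI false

noncomputable section

open AlgebraicCurve ModularCurve IntermediateField

namespace Fermat.Agent.ES1

open Fermat.Agent.ES Fermat.Agent.ES.G2 Fermat.Agent.ES.G2.FrobAux Fermat.Agent.S24
open Fermat.Agent.ES1.G2

variable (L M : ℕ) (H : Subgroup (ZMod M)ˣ) (ℓ : ℕ) [NeZero ℓ]

/-- the norm of `β u = u(q^ℓ)` from level `L ℓ` down to level `L` (along the inclusion `α`) -/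
def es1hNormFun (u : fieldBar L M H) : fieldBar L M H :=
  frobNorm (es1hBeta L M H ℓ) (es1hAlpha L M H ℓ) u

theorem es1hNormFun_mul (u v : fieldBar L M H) :
    es1hNormFun L M H ℓ (u * v) = es1hNormFun L M H ℓ u * es1hNormFun L M H ℓ v :=
  frobNorm_mul _ _ u v

variable {L M H ℓ}

theorem es1hNormFun_ne_zero (h : Es1hFin L M H) (h' : Es1hFin (L * ℓ) M H)
    {u : fieldBar L M H} (hu : u ≠ 0) : es1hNormFun L M H ℓ u ≠ 0 :=
  frobNorm_ne_zero _ _ (es1h_finiteAlong (es1hAlpha L M H ℓ) h h') hu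

/-- **HKa for `T_ℓ`.**  If `u` is a Kummer function of `x ∈ JH L M H` then `N_α (β u)` is a Kummer
function of `T_ℓ x`. -/
theorem es1h_kummerRel_hecke (h : Es1hFin L M H) (h' : Es1hFin (L * ℓ) M H) {n : ℕ}
    {x : JH L M H} {u : fieldBar L M H} (hK : KummerRel n x u) :
    KummerRel n (es1hHecke L M H ℓ x) (es1hNormFun L M H ℓ u) := by
  haveI := es1h_hasPrincipalDivisors h'
  rw [es1hHecke_eq_of_fin h h']
  exact KummerRel.correspondence _ _ _ _ _ _ _ hK

/-- **HKa for the diamonds.**  If `u` is a Kummer function of `x` then `δ u` is a Kummer function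
of `diamondJ δ x`. -/
theorem es1h_kummerRel_diamond (δ : fieldBar L M H ≃ₐ[Kb] fieldBar L M H) {n : ℕ}
    {x : JH L M H} {u : fieldBar L M H} (hK : KummerRel n x u) :
    KummerRel n (diamondJ δ x) (δ u) :=
  KummerRel.smul (SemilinearAut.ofAlgAut δ) hK

/-- **HKa for Galois.**  If `u` is a Kummer function of `x` then `σ u` (coefficientwise) is a
Kummer function of `σ • x`. -/
theorem es1h_kummerRel_galois (σ : Kb ≃ₐ[ℚ] Kb) {n : ℕ} {x : JH L M H} {u : fieldBar L M H}
    (hK : KummerRel n x u) :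
    KummerRel n (σ • x) (arithmeticGalois (fieldQ L M H) σ • u) :=
  KummerRel.smul (arithmeticGalois (fieldQ L M H) σ) hK

end Fermat.Agent.ES1
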