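import Fermat.Agent.ES1.HeckeGrp
import Fermat.Agent.ES.Multiplier
import Fermat.Agent.S28.ScaleForm

/-!
# ES₁ / G1-HKb-MULT — the Hecke product of a root datum has multiplier `heckeGrp χ` (helper82)

`Γ = gammaH L M H`, `Γ' = subLevel L M H ℓ` (`= gammaH (L ℓ) M H` inside `Γ`),
`rep : Γ ⧸ Γ' → Γ` ANY section of the quotient map (`hrep : ∀ q, ↑(rep q) = q`).

* `es1g1hPt rep q τ = ℓ · (rep q)⁻¹ τ`;
* `es1g1hProd rep f τ = ∏_{q : Γ ⧸ Γ'} f (ℓ · (rep q)⁻¹ τ)` (`= N_{Γ' → Γ} (f (ℓ τ))`);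
* `es1g1hKap rep hrep γ q = (rep q)⁻¹ γ rep (γ⁻¹ q) ∈ Γ'`, `es1g1h_transfer_eq`:
  `transfer ϕ γ = ∏_q ϕ (κ(γ, q))` (Mathlib's transfer, for any section);
* `es1g1hPt_smul` : `ℓ · (rep q)⁻¹ (γ τ) = conj_α (κ(γ, q)) · (ℓ · (rep (γ⁻¹ q))⁻¹ τ)`;
* `es1g1h_isMultiplier` : if `a / g` has multiplier `χ` on `Γ` then `hProd a / hProd g` has
  multiplier `γ ↦ ∏_q χ (conj_α κ(γ, q))`;
* `es1g1hRoot` : the root datum `(hProd a) / (hProd g)`; **`es1g1hRoot_multAdd`** : its multiplier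
  character is `heckeGrp L M H ℓ hML R.multAdd`;
* `es1g1hProd_smul_of_invariant`, `es1g1hProd_congr_rep` : for a `Γ`-invariant `f`, `hProd f` is
  `Γ`-invariant and does not depend on the section;
* `es1g1hProd_rel` : a relation `A ^ n · g = a · G ^ n` is preserved by `hProd`.
-/

set_option autoImplicit false
set_option linter.unusedSectionVars false

noncomputable section

namespace Fermat.Agent.ES1

open UpperHalfPlane CongruenceSubgroup Matrix Matrix.SpecialLinearGroup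
open Fermat.Agent.S23 Fermat.Agent.S28 Fermat.Agent.ES
open scoped MatrixGroups Manifold

attribute [local instance] Subgroup.fintypeQuotientOfFiniteIndex

/-! ## The companion matrix -/

theorem es1g1h_companion_eq (ℓ : ℕ) [NeZero ℓ] (γ : SL(2, ℤ)) (h : (ℓ : ℤ) ∣ γ 1 0) :
    P7_thetaCompanion ℓ γ h = conjAlphaSL ℓ γ h := rfl

/-- `ℓ · (γ z) = conj_α(γ) · (ℓ z)` for `γ ∈ Γ₀(ℓ)` -/
theorem es1g1h_scaleN_smul (ℓ : ℕ) [NeZero ℓ] (γ : SL(2, ℤ)) (h : (ℓ : ℤ) ∣ γ 1 0) (z : ℍ) :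
    scaleN ℓ (γ • z) = conjAlphaSL ℓ γ h • scaleN ℓ z :=
  P7_thetaCompanion_smul ℓ γ h z

section Main

variable (L M : ℕ) [NeZero L] [NeZero M] (H : Subgroup (ZMod M)ˣ) (ℓ : ℕ) [NeZero ℓ]

/-! ## The points `ℓ · (rep q)⁻¹ τ` and the Hecke product -/

/-- the point `ℓ · (rep q)⁻¹ τ` -/
def es1g1hPt (rep : gammaH L M H ⧸ subLevel L M H ℓ → gammaH L M H)
    (q : gammaH L M H ⧸ subLevel L M H ℓ) (τ : ℍ) : ℍ :=
  scaleN ℓ ((((rep q : gammaH L M H) : SL(2, ℤ)))⁻¹ • τ)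

/-- **the Hecke product** `∏_{q : Γ ⧸ Γ'} f (ℓ · (rep q)⁻¹ τ)` -/
def es1g1hProd (rep : gammaH L M H ⧸ subLevel L M H ℓ → gammaH L M H) (f : ℍ → ℂ) : ℍ → ℂ :=
  fun τ => ∏ q : gammaH L M H ⧸ subLevel L M H ℓ, f (es1g1hPt L M H ℓ rep q τ)

variable {L M H ℓ}

theorem es1g1hProd_apply (rep : gammaH L M H ⧸ subLevel L M H ℓ → gammaH L M H) (f : ℍ → ℂ)
    (τ : ℍ) :
    es1g1hProd L M H ℓ rep f τ
      = ∏ q : gammaH L M H ⧸ subLevel L M H ℓ, f (es1g1hPt L M H ℓ rep q τ) := rfl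

/-- the same product, for any `Fintype` instance on the quotient -/
theorem es1g1hProd_apply' [inst : Fintype (gammaH L M H ⧸ subLevel L M H ℓ)]
    (rep : gammaH L M H ⧸ subLevel L M H ℓ → gammaH L M H) (f : ℍ → ℂ) (τ : ℍ) :
    es1g1hProd L M H ℓ rep f τ
      = @Finset.prod _ _ _ (@Finset.univ _ inst) fun q => f (es1g1hPt L M H ℓ rep q τ) := by
  rw [es1g1hProd_apply]
  have : inst = (subLevel L M H ℓ).fintypeQuotientOfFiniteIndex := Subsingleton.elim _ _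
  subst this
  rfl

theorem es1g1hProd_mul (rep : gammaH L M H ⧸ subLevel L M H ℓ → gammaH L M H) (f g : ℍ → ℂ) :
    es1g1hProd L M H ℓ rep (fun τ => f τ * g τ)
      = fun τ => es1g1hProd L M H ℓ rep f τ * es1g1hProd L M H ℓ rep g τ := by
  funext τ
  simp only [es1g1hProd_apply, Finset.prod_mul_distrib]

theorem es1g1hProd_pow (rep : gammaH L M H ⧸ subLevel L M H ℓ → gammaH L M H) (f : ℍ → ℂ)
    (k : ℕ) :
    es1g1hProd L M H ℓ rep (fun τ => f τ ^ k) = fun τ => es1g1hProd L M H ℓ rep f τ ^ k := by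
  funext τ
  simp only [es1g1hProd_apply, Finset.prod_pow]

theorem es1g1hProd_one (rep : gammaH L M H ⧸ subLevel L M H ℓ → gammaH L M H) :
    es1g1hProd L M H ℓ rep (fun _ => (1 : ℂ)) = fun _ => 1 := by
  funext τ
  simp only [es1g1hProd_apply, Finset.prod_const_one]

/-- a relation `A ^ n · g = a · G ^ n` is preserved by the Hecke product -/
theorem es1g1hProd_rel (rep : gammaH L M H ⧸ subLevel L M H ℓ → gammaH L M H) {n : ℕ}
    {A G a g : ℍ → ℂ} (h : ∀ τ, A τ ^ n * g τ = a τ * G τ ^ n) (τ : ℍ) :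
    es1g1hProd L M H ℓ rep A τ ^ n * es1g1hProd L M H ℓ rep g τ
      = es1g1hProd L M H ℓ rep a τ * es1g1hProd L M H ℓ rep G τ ^ n := by
  simp only [es1g1hProd_apply, ← Finset.prod_pow, ← Finset.prod_mul_distrib]
  exact Finset.prod_congr rfl fun q _ => h _

theorem es1g1h_mdiff_pt (rep : gammaH L M H ⧸ subLevel L M H ℓ → gammaH L M H)
    (q : gammaH L M H ⧸ subLevel L M H ℓ) {f : ℍ → ℂ} (hf : MDiff f) :
    MDiff (fun τ => f (es1g1hPt L M H ℓ rep q τ)) :=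
  mdiff_comp_SL (mdiff_comp_scaleN ℓ hf) _

theorem es1g1h_pt_ne_zero (rep : gammaH L M H ⧸ subLevel L M H ℓ → gammaH L M H)
    (q : gammaH L M H ⧸ subLevel L M H ℓ) {f : ℍ → ℂ} (hf0 : f ≠ 0) :
    (fun τ => f (es1g1hPt L M H ℓ rep q τ)) ≠ 0 := by
  intro h
  have h1 : (fun z => f (scaleN ℓ z)) = 0 :=
    (comp_SL_eq_zero_iff (w := fun z => f (scaleN ℓ z))
      (((rep q : gammaH L M H) : SL(2, ℤ)))⁻¹).mp h
  -- `f ∘ scaleN ℓ = 0` forces `f = 0` on the image, hence everywhere by the identity theorem: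
  -- we avoid it: `f (ℓ z) = 0` for all `z` gives `f w = 0` for `w = ℓ (w / ℓ)`.
  apply hf0
  funext w
  have hℓ : (0 : ℝ) < (ℓ : ℝ) := Nat.cast_pos.mpr (Nat.pos_of_ne_zero (NeZero.ne ℓ))
  have hℓ' : (ℓ : ℂ) ≠ 0 := by exact_mod_cast NeZero.ne ℓ
  have him : 0 < ((w : ℂ) / (ℓ : ℂ)).im := by
    have : ((w : ℂ) / (ℓ : ℂ)).im = w.im / (ℓ : ℝ) := by
      rw [show ((ℓ : ℂ)) = ((ℓ : ℝ) : ℂ) by push_cast; rfl, Complex.div_ofReal_im]
      rfl
    rw [this]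
    exact div_pos w.im_pos hℓ
  have h2 := congrFun h1 ⟨(w : ℂ) / (ℓ : ℂ), him⟩
  have h3 : scaleN ℓ ⟨(w : ℂ) / (ℓ : ℂ), him⟩ = w := by
    apply UpperHalfPlane.ext
    rw [coe_scaleN]
    show (ℓ : ℂ) * ((w : ℂ) / (ℓ : ℂ)) = w
    field_simp
  simp only [h3] at h2
  exact h2

theorem es1g1h_mdiff_prod (rep : gammaH L M H ⧸ subLevel L M H ℓ → gammaH L M H) {f : ℍ → ℂ}
    (hf : MDiff f) : MDiff (es1g1hProd L M H ℓ rep f) := by
  have h : ∀ s : Finset (gammaH L M H ⧸ subLevel L M H ℓ),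
      MDiff (fun τ : ℍ => ∏ q ∈ s, f (es1g1hPt L M H ℓ rep q τ)) := by
    intro s
    classical
    induction s using Finset.induction_on with
    | empty => simpa using (mdifferentiable_const : MDiff (fun _ : ℍ => (1 : ℂ)))
    | insert q s hq ih =>
      simp only [Finset.prod_insert hq]
      exact (es1g1h_mdiff_pt rep q hf).mul ih
  exact h Finset.univ

theorem es1g1h_prod_ne_zero (rep : gammaH L M H ⧸ subLevel L M H ℓ → gammaH L M H) {f : ℍ → ℂ}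
    (hf : MDiff f) (hf0 : f ≠ 0) : es1g1hProd L M H ℓ rep f ≠ 0 := by
  have h : ∀ s : Finset (gammaH L M H ⧸ subLevel L M H ℓ),
      (fun τ : ℍ => ∏ q ∈ s, f (es1g1hPt L M H ℓ rep q τ)) ≠ 0 ∧
        MDiff (fun τ : ℍ => ∏ q ∈ s, f (es1g1hPt L M H ℓ rep q τ)) := by
    intro s
    classical
    induction s using Finset.induction_on with
    | empty =>
      refine ⟨?_, by simpa using (mdifferentiable_const : MDiff (fun _ : ℍ => (1 : ℂ)))⟩
      intro h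
      have := congrFun h UpperHalfPlane.I
      simp at this
    | insert q s hq ih =>
      simp only [Finset.prod_insert hq]
      exact ⟨mdiff_mul_ne_zero (es1g1h_mdiff_pt rep q hf) ih.2 (es1g1h_pt_ne_zero rep q hf0)
        ih.1, (es1g1h_mdiff_pt rep q hf).mul ih.2⟩
  exact (h Finset.univ).1

/-! ## The cocycle `κ(γ, q) = (rep q)⁻¹ γ rep (γ⁻¹ q)` and the transfer -/

theorem es1g1h_kap_mem {rep : gammaH L M H ⧸ subLevel L M H ℓ → gammaH L M H}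
    (hrep : ∀ q, ((rep q : gammaH L M H) : gammaH L M H ⧸ subLevel L M H ℓ) = q)
    (γ : gammaH L M H) (q : gammaH L M H ⧸ subLevel L M H ℓ) :
    (rep q)⁻¹ * (γ * rep (γ⁻¹ • q)) ∈ subLevel L M H ℓ := by
  rw [← QuotientGroup.eq]
  rw [hrep q]
  have : ((γ * rep (γ⁻¹ • q) : gammaH L M H) : gammaH L M H ⧸ subLevel L M H ℓ)
      = γ • ((rep (γ⁻¹ • q) : gammaH L M H) : gammaH L M H ⧸ subLevel L M H ℓ) := rfl
  rw [this, hrep, smul_inv_smul]

/-- `κ(γ, q) = (rep q)⁻¹ γ rep (γ⁻¹ q) ∈ Γ'` -/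
def es1g1hKap (rep : gammaH L M H ⧸ subLevel L M H ℓ → gammaH L M H)
    (hrep : ∀ q, ((rep q : gammaH L M H) : gammaH L M H ⧸ subLevel L M H ℓ) = q)
    (γ : gammaH L M H) (q : gammaH L M H ⧸ subLevel L M H ℓ) : subLevel L M H ℓ :=
  ⟨(rep q)⁻¹ * (γ * rep (γ⁻¹ • q)), es1g1h_kap_mem hrep γ q⟩

theorem es1g1hKap_coe (rep : gammaH L M H ⧸ subLevel L M H ℓ → gammaH L M H)
    (hrep : ∀ q, ((rep q : gammaH L M H) : gammaH L M H ⧸ subLevel L M H ℓ) = q)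
    (γ : gammaH L M H) (q : gammaH L M H ⧸ subLevel L M H ℓ) :
    ((es1g1hKap rep hrep γ q : subLevel L M H ℓ) : gammaH L M H)
      = (rep q)⁻¹ * (γ * rep (γ⁻¹ • q)) := rfl

/-- **Mathlib's transfer, computed with any section.** -/
theorem es1g1h_transfer_eq {A : Type*} [CommGroup A] (ϕ : subLevel L M H ℓ →* A)
    (rep : gammaH L M H ⧸ subLevel L M H ℓ → gammaH L M H)
    (hrep : ∀ q, ((rep q : gammaH L M H) : gammaH L M H ⧸ subLevel L M H ℓ) = q)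
    (γ : gammaH L M H) :
    MonoidHom.transfer ϕ γ
      = ∏ q : gammaH L M H ⧸ subLevel L M H ℓ, ϕ (es1g1hKap rep hrep γ q) := by
  rw [MonoidHom.transfer_def ϕ ⟨Set.range rep, Subgroup.isComplement_range_left hrep⟩ γ]
  unfold Subgroup.leftTransversals.diff
  refine Finset.prod_congr rfl fun q _ => ?_
  congr 1
  apply Subtype.ext
  rw [es1g1hKap_coe]
  simp only
  rw [Subgroup.smul_apply_eq_smul_apply_inv_smul]
  rw [Subgroup.IsComplement.leftQuotientEquiv_apply hrep,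
    Subgroup.IsComplement.leftQuotientEquiv_apply hrep]
  rfl

/-! ## The points under `Γ` -/

theorem es1g1h_dvd_kap (rep : gammaH L M H ⧸ subLevel L M H ℓ → gammaH L M H)
    (hrep : ∀ q, ((rep q : gammaH L M H) : gammaH L M H ⧸ subLevel L M H ℓ) = q)
    (γ : gammaH L M H) (q : gammaH L M H ⧸ subLevel L M H ℓ) :
    (ℓ : ℤ) ∣ (((es1g1hKap rep hrep γ q : subLevel L M H ℓ) : gammaH L M H) : SL(2, ℤ)) 1 0 :=
  dvd_of_mem_gammaH_mul H ℓ (subLevelEquiv L M H ℓ (es1g1hKap rep hrep γ q)).2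

/-- `ℓ · (rep q)⁻¹ (γ τ) = conj_α (κ(γ, q)) · (ℓ · (rep (γ⁻¹ q))⁻¹ τ)` -/
theorem es1g1hPt_smul (hML : M ∣ L) (rep : gammaH L M H ⧸ subLevel L M H ℓ → gammaH L M H)
    (hrep : ∀ q, ((rep q : gammaH L M H) : gammaH L M H ⧸ subLevel L M H ℓ) = q)
    (γ : gammaH L M H) (q : gammaH L M H ⧸ subLevel L M H ℓ) (τ : ℍ) :
    es1g1hPt L M H ℓ rep q ((γ : SL(2, ℤ)) • τ)
      = ((conjAlphaH H ℓ (NeZero.ne ℓ) hML (subLevelEquiv L M H ℓ (es1g1hKap rep hrep γ q))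
            : gammaH L M H) : SL(2, ℤ)) • es1g1hPt L M H ℓ rep (γ⁻¹ • q) τ := by
  unfold es1g1hPt
  have e : (((rep q : gammaH L M H) : SL(2, ℤ)))⁻¹ • ((γ : SL(2, ℤ)) • τ)
      = ((((es1g1hKap rep hrep γ q : subLevel L M H ℓ) : gammaH L M H) : SL(2, ℤ)))
          • ((((rep (γ⁻¹ • q) : gammaH L M H) : SL(2, ℤ)))⁻¹ • τ) := by
    rw [es1g1hKap_coe]
    simp only [Subgroup.coe_mul, Subgroup.coe_inv]
    rw [← mul_smul, ← mul_smul, mul_assoc, mul_assoc, mul_inv_cancel, mul_one]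
  rw [e, es1g1h_scaleN_smul ℓ _ (es1g1h_dvd_kap rep hrep γ q)]
  rfl

/-! ## The multiplier of the Hecke product -/

/-- **Multiplier of the Hecke product.** -/
theorem es1g1h_isMultiplier (hML : M ∣ L)
    (rep : gammaH L M H ⧸ subLevel L M H ℓ → gammaH L M H)
    (hrep : ∀ q, ((rep q : gammaH L M H) : gammaH L M H ⧸ subLevel L M H ℓ) = q)
    {a g : ℍ → ℂ} (χ : gammaH L M H → ℂ)
    (hχ : ∀ γ : gammaH L M H, IsMultiplier (γ : SL(2, ℤ)) a g (χ γ)) (γ : gammaH L M H) :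
    IsMultiplier (γ : SL(2, ℤ)) (es1g1hProd L M H ℓ rep a) (es1g1hProd L M H ℓ rep g)
      (∏ q : gammaH L M H ⧸ subLevel L M H ℓ,
        χ (conjAlphaH H ℓ (NeZero.ne ℓ) hML
          (subLevelEquiv L M H ℓ (es1g1hKap rep hrep γ q)))) := by
  intro τ
  simp only [es1g1hProd_apply]
  have e1 : ∀ f : ℍ → ℂ, ∏ q : gammaH L M H ⧸ subLevel L M H ℓ, f (es1g1hPt L M H ℓ rep q τ)
      = ∏ q : gammaH L M H ⧸ subLevel L M H ℓ, f (es1g1hPt L M H ℓ rep (γ⁻¹ • q) τ) := by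
    intro f
    exact (Equiv.prod_comp (MulAction.toPerm γ⁻¹) (fun q => f (es1g1hPt L M H ℓ rep q τ))).symm
  have e2 : ∀ f : ℍ → ℂ,
      ∏ q : gammaH L M H ⧸ subLevel L M H ℓ, f (es1g1hPt L M H ℓ rep q ((γ : SL(2, ℤ)) • τ))
      = ∏ q : gammaH L M H ⧸ subLevel L M H ℓ,
          f (((conjAlphaH H ℓ (NeZero.ne ℓ) hML (subLevelEquiv L M H ℓ (es1g1hKap rep hrep γ q))
            : gammaH L M H) : SL(2, ℤ)) • es1g1hPt L M H ℓ rep (γ⁻¹ • q) τ) := by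
    intro f
    refine Finset.prod_congr rfl fun q _ => ?_
    rw [es1g1hPt_smul hML rep hrep γ q τ]
  rw [e2 a, e2 g, e1 g, e1 a, ← Finset.prod_mul_distrib, ← Finset.prod_mul_distrib,
    ← Finset.prod_mul_distrib]
  refine Finset.prod_congr rfl fun q _ => ?_
  exact hχ _ (es1g1hPt L M H ℓ rep (γ⁻¹ • q) τ)

/-- for a `Γ`-invariant `f` the Hecke product is `Γ`-invariant -/
theorem es1g1hProd_smul_of_invariant (hML : M ∣ L)
    (rep : gammaH L M H ⧸ subLevel L M H ℓ → gammaH L M H)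
    (hrep : ∀ q, ((rep q : gammaH L M H) : gammaH L M H ⧸ subLevel L M H ℓ) = q)
    {f : ℍ → ℂ} (hf : ∀ γ ∈ gammaH L M H, ∀ z, f (γ • z) = f z)
    {γ : SL(2, ℤ)} (hγ : γ ∈ gammaH L M H) (τ : ℍ) :
    es1g1hProd L M H ℓ rep f (γ • τ) = es1g1hProd L M H ℓ rep f τ := by
  simp only [es1g1hProd_apply]
  have e1 : ∏ q : gammaH L M H ⧸ subLevel L M H ℓ, f (es1g1hPt L M H ℓ rep q τ)
      = ∏ q : gammaH L M H ⧸ subLevel L M H ℓ,
          f (es1g1hPt L M H ℓ rep ((⟨γ, hγ⟩ : gammaH L M H)⁻¹ • q) τ) :=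
    (Equiv.prod_comp (MulAction.toPerm (⟨γ, hγ⟩ : gammaH L M H)⁻¹)
      (fun q => f (es1g1hPt L M H ℓ rep q τ))).symm
  rw [e1]
  refine Finset.prod_congr rfl fun q _ => ?_
  have := es1g1hPt_smul hML rep hrep ⟨γ, hγ⟩ q τ
  rw [show ((⟨γ, hγ⟩ : gammaH L M H) : SL(2, ℤ)) = γ from rfl] at this
  rw [this]
  exact hf _ (SetLike.coe_mem _) _

/-- for a `Γ`-invariant `f` the Hecke product does not depend on the section -/
theorem es1g1hProd_congr_rep (hML : M ∣ L)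
    (rep rep' : gammaH L M H ⧸ subLevel L M H ℓ → gammaH L M H)
    (hrep : ∀ q, ((rep q : gammaH L M H) : gammaH L M H ⧸ subLevel L M H ℓ) = q)
    (hrep' : ∀ q, ((rep' q : gammaH L M H) : gammaH L M H ⧸ subLevel L M H ℓ) = q)
    {f : ℍ → ℂ} (hf : ∀ γ ∈ gammaH L M H, ∀ z, f (γ • z) = f z) :
    es1g1hProd L M H ℓ rep f = es1g1hProd L M H ℓ rep' f := by
  funext τ
  simp only [es1g1hProd_apply]
  refine Finset.prod_congr rfl fun q _ => ?_
  -- `(rep q)⁻¹ = κ (rep' q)⁻¹` with `κ = (rep q)⁻¹ rep' q ∈ Γ'`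
  have hmem : (rep q)⁻¹ * rep' q ∈ subLevel L M H ℓ := by
    rw [← QuotientGroup.eq, hrep, hrep']
  have hdvd : (ℓ : ℤ) ∣ ((((rep q)⁻¹ * rep' q : gammaH L M H)) : SL(2, ℤ)) 1 0 :=
    dvd_of_mem_gammaH_mul H ℓ (subLevelEquiv L M H ℓ ⟨_, hmem⟩).2
  unfold es1g1hPt
  have e : (((rep q : gammaH L M H) : SL(2, ℤ)))⁻¹ • τ
      = ((((rep q)⁻¹ * rep' q : gammaH L M H)) : SL(2, ℤ))
          • ((((rep' q : gammaH L M H) : SL(2, ℤ)))⁻¹ • τ) := by
    simp only [Subgroup.coe_mul, Subgroup.coe_inv]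
    rw [← mul_smul, mul_assoc, mul_inv_cancel, mul_one]
  rw [e, es1g1h_scaleN_smul ℓ _ hdvd]
  exact hf _ (conjAlphaSL_mem_gammaH H ℓ (NeZero.ne ℓ) hML
    (subLevelEquiv L M H ℓ ⟨_, hmem⟩).2) _

/-! ## The Hecke transform of a root datum -/

variable {n : ℕ}

theorem es1g1h_prod_multVal_pow (hML : M ∣ L)
    (rep : gammaH L M H ⧸ subLevel L M H ℓ → gammaH L M H)
    (hrep : ∀ q, ((rep q : gammaH L M H) : gammaH L M H ⧸ subLevel L M H ℓ) = q)
    (R : RootData (gammaH L M H) n) (γ : gammaH L M H) :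
    (∏ q : gammaH L M H ⧸ subLevel L M H ℓ,
        R.multVal (conjAlphaH H ℓ (NeZero.ne ℓ) hML
          (subLevelEquiv L M H ℓ (es1g1hKap rep hrep γ q)))) ^ n = 1 := by
  rw [← Finset.prod_pow]
  exact Finset.prod_eq_one fun q _ => R.multVal_pow _

/-- **The Hecke transform** `(hProd a) / (hProd g)` of a root datum on `Γ = gammaH L M H`. -/
def es1g1hRoot (hML : M ∣ L) (rep : gammaH L M H ⧸ subLevel L M H ℓ → gammaH L M H)
    (hrep : ∀ q, ((rep q : gammaH L M H) : gammaH L M H ⧸ subLevel L M H ℓ) = q)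
    (R : RootData (gammaH L M H) n) : RootData (gammaH L M H) n where
  a := es1g1hProd L M H ℓ rep R.a
  g := es1g1hProd L M H ℓ rep R.g
  p_ne_zero := R.p_ne_zero
  mdiff_a := es1g1h_mdiff_prod rep R.mdiff_a
  mdiff_g := es1g1h_mdiff_prod rep R.mdiff_g
  a_ne_zero := es1g1h_prod_ne_zero rep R.mdiff_a R.a_ne_zero
  g_ne_zero := es1g1h_prod_ne_zero rep R.mdiff_g R.g_ne_zero
  pow_inv γ hγ τ := by
    have h := es1g1h_isMultiplier hML rep hrep (fun δ : gammaH L M H => R.multVal δ)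
      (fun δ => R.multVal_spec δ) ⟨γ, hγ⟩ τ
    have h1 := es1g1h_prod_multVal_pow hML rep hrep R ⟨γ, hγ⟩
    have h2 : es1g1hProd L M H ℓ rep R.a (γ • τ) * es1g1hProd L M H ℓ rep R.g τ
        = (∏ q : gammaH L M H ⧸ subLevel L M H ℓ,
            R.multVal (conjAlphaH H ℓ (NeZero.ne ℓ) hML
              (subLevelEquiv L M H ℓ (es1g1hKap rep hrep ⟨γ, hγ⟩ q))))
          * (es1g1hProd L M H ℓ rep R.a τ * es1g1hProd L M H ℓ rep R.g (γ • τ)) := h
    rw [h2, mul_pow, h1, one_mul]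

@[simp] theorem es1g1hRoot_a (hML : M ∣ L)
    (rep : gammaH L M H ⧸ subLevel L M H ℓ → gammaH L M H)
    (hrep : ∀ q, ((rep q : gammaH L M H) : gammaH L M H ⧸ subLevel L M H ℓ) = q)
    (R : RootData (gammaH L M H) n) :
    (es1g1hRoot hML rep hrep R).a = es1g1hProd L M H ℓ rep R.a := rfl

@[simp] theorem es1g1hRoot_g (hML : M ∣ L)
    (rep : gammaH L M H ⧸ subLevel L M H ℓ → gammaH L M H)
    (hrep : ∀ q, ((rep q : gammaH L M H) : gammaH L M H ⧸ subLevel L M H ℓ) = q)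
    (R : RootData (gammaH L M H) n) :
    (es1g1hRoot hML rep hrep R).g = es1g1hProd L M H ℓ rep R.g := rfl

/-- the multiplier of the Hecke transform -/
theorem es1g1hRoot_mult (hML : M ∣ L) (rep : gammaH L M H ⧸ subLevel L M H ℓ → gammaH L M H)
    (hrep : ∀ q, ((rep q : gammaH L M H) : gammaH L M H ⧸ subLevel L M H ℓ) = q)
    (R : RootData (gammaH L M H) n) (γ : gammaH L M H) :
    (es1g1hRoot hML rep hrep R).mult γ
      = ∏ q : gammaH L M H ⧸ subLevel L M H ℓ,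
          R.mult (conjAlphaH H ℓ (NeZero.ne ℓ) hML
            (subLevelEquiv L M H ℓ (es1g1hKap rep hrep γ q))) := by
  rw [RootData.mult_eq_iff]
  have h := es1g1h_isMultiplier hML rep hrep (fun δ : gammaH L M H => R.multVal δ)
    (fun δ => R.multVal_spec δ) γ
  have e : ((∏ q : gammaH L M H ⧸ subLevel L M H ℓ,
          R.mult (conjAlphaH H ℓ (NeZero.ne ℓ) hML
            (subLevelEquiv L M H ℓ (es1g1hKap rep hrep γ q))) : ℂˣ) : ℂ)
      = ∏ q : gammaH L M H ⧸ subLevel L M H ℓ,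
          R.multVal (conjAlphaH H ℓ (NeZero.ne ℓ) hML
            (subLevelEquiv L M H ℓ (es1g1hKap rep hrep γ q))) := by
    rw [Units.coe_prod]
    rfl
  rw [e]
  exact h

/-- **Hecke equivariance of the multiplier map**: the multiplier character of the Hecke transform
is `heckeGrp` (Mathlib's transfer of `χ ∘ conj_α`) applied to the multiplier character. -/
theorem es1g1hRoot_multAdd (hML : M ∣ L)
    (rep : gammaH L M H ⧸ subLevel L M H ℓ → gammaH L M H)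
    (hrep : ∀ q, ((rep q : gammaH L M H) : gammaH L M H ⧸ subLevel L M H ℓ) = q)
    (R : RootData (gammaH L M H) n) :
    (es1g1hRoot hML rep hrep R).multAdd = heckeGrp L M H ℓ hML R.multAdd := by
  refine DFunLike.ext _ _ fun γ => ?_
  obtain ⟨γ, rfl⟩ := Additive.ofMul.surjective γ
  rw [RootData.multAdd_apply, heckeGrp_apply, es1g1hRoot_mult,
    es1g1h_transfer_eq (heckeRes L M H ℓ hML R.multAdd) rep hrep γ]
  rw [ofMul_prod, toAdd_prod]
  refine Finset.sum_congr rfl fun q _ => ?_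
  rfl

end Main

end Fermat.Agent.ES1
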