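import Fermat.Agent.ES1.G1Plan
import Fermat.Agent.ES1.G1.HeckeRootH
import Fermat.Agent.ES1.G1.HeckeKummerH

/-!
# ES₁ / G1, piece HKb: the seam between HKb-NORM and the assembly (helper81)

`StmtHKbCross L M H ℓ` : for `u = a / g` analytically (`IsAnFracH`) and ANY fraction `a' / g'` of
modular functions for `Γ = gammaH L M H` representing the norm `u' = N_α (β u)`
(`es1hNormFun L M H ℓ u`, the Kummer function of `T_ℓ x`), one has
`a' · hProd g = g' · hProd a`, where `hProd f τ = ∏_{q ∈ Γ ⧸ Γ'} f (ℓ · (rep q)⁻¹ τ)`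
(`es1g1hProd`, `ES1/G1/HeckeRootH.lean`).

Together with `es1g1hProd_rel`, `es1g1hRoot`, `es1g1hRoot_multAdd` (HKb-MULT) and
`es1h_kummerRel_hecke` (HKa) this gives `MuHeckeH`, exactly as in `ES/MuHecke.lean`
(`hcross` there).
-/

set_option autoImplicit false

noncomputable section

namespace Fermat.Agent.ES1

open ModularCurve AlgebraicCurve CongruenceSubgroup UpperHalfPlane
open Fermat.Agent.ES Fermat.Agent.S24 Fermat.Agent.S28
open scoped MatrixGroups Manifold

/-- **HKb-NORM, cross form.** -/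
def StmtHKbCross (L M : ℕ) [NeZero L] [NeZero M] (H : Subgroup (ZMod M)ˣ) (ℓ : ℕ) [NeZero ℓ] :
    Prop :=
  ∀ (rep : gammaH L M H ⧸ subLevel L M H ℓ → gammaH L M H),
    (∀ q, ((rep q : gammaH L M H) : gammaH L M H ⧸ subLevel L M H ℓ) = q) →
    ∀ (u : fieldBar L M H) (a g : ℍ → ℂ), IsAnFracH L M H u a g →
    ∀ (a' g' : ℍ → ℂ), IsModFunG (gammaH L M H) a' → IsModFunG (gammaH L M H) g' →
      coeffMap embC ((es1hNormFun L M H ℓ u : fieldBar L M H) :
          LaurentSeries (AlgebraicClosure ℚ)) * laurentOf g' = laurentOf a' →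
      ∀ τ : ℍ, a' τ * es1g1hProd L M H ℓ rep g τ = g' τ * es1g1hProd L M H ℓ rep a τ

end Fermat.Agent.ES1
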