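import Fermat.Agent.ES1.G1.HKbPlan
import Fermat.Agent.ES1.HFinal
import Fermat.Agent.ES1.RCGamma

/-!
# ES₁ / G1-HKb, assembly — Hecke-equivariance of the multiplier map (helper82)

`es1g1h_muHeckeH_of_cross hML : (∀ ℓ, ℓ.Prime → ¬ ℓ ∣ L → StmtHKbCross L M H ℓ) → MuHeckeH L M H hML`:
`μ (T_ℓ x) = heckeGrp ℓ (μ x)` for the primes `ℓ ∤ L`.

Proof (fork of `ES/MuHecke.lean`).  `u' = N_α (β u)` is a Kummer function of `T_ℓ x` (HKa,
`es1h_kummerRel_hecke`, with `Es1hFin` from `es1hFin_all`).  Write `u' = a' / g'` with `a'`, `g'`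
modular functions for `Γ` (`es1rc_exists_frac`); by the seam `StmtHKbCross` (HKb-NORM, helper81)
`a' · hProd g = g' · hProd a`; the root datum `es1g1hRoot R` (`w' = hProd w`) satisfies
`w'ⁿ = a' / g'` (`es1g1hProd_rel`), and its multiplier is `heckeGrp ℓ χ` (`es1g1hRoot_multAdd`).
-/

set_option autoImplicit false

noncomputable section

namespace Fermat.Agent.ES1

open ModularCurve AlgebraicCurve CongruenceSubgroup UpperHalfPlane
open Fermat.Agent.ES Fermat.Agent.S24 Fermat.Agent.S28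
open scoped MatrixGroups Manifold

variable {L M : ℕ} [NeZero L] [NeZero M] {H : Subgroup (ZMod M)ˣ}

/-- **(H) for one prime**, from the seam `StmtHKbCross`. -/
theorem es1g1h_muRelH_hecke (hML : M ∣ L) (ℓ : ℕ) [NeZero ℓ]
    (hcross : StmtHKbCross L M H ℓ) {n : ℕ} {x : JH L M H} {χ : CharGrpH L M H}
    (h : MuRelH L M H n x χ) :
    MuRelH L M H n (es1hHecke L M H ℓ x) (heckeGrp L M H ℓ hML χ) := by
  obtain ⟨u, a, g, R, hK, ⟨ha, hg, hg0, hq⟩, hroot, hχ⟩ := h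
  -- the Kummer function of `T_ℓ x`
  have hF : Es1hFin L M H := es1hFin_all (NeZero.ne L) hML
  have hF' : Es1hFin (L * ℓ) M H :=
    es1hFin_all (mul_ne_zero (NeZero.ne L) (NeZero.ne ℓ)) (hML.mul_right ℓ)
  have hK' : KummerRel n (es1hHecke L M H ℓ x) (es1hNormFun L M H ℓ u) :=
    es1h_kummerRel_hecke hF hF' hK
  -- a fraction for `u'`
  obtain ⟨a', g', ha', hg', hg'0, hq'⟩ :=
    es1rc_exists_frac H (coeffMap_embC_mem_fieldC L M H (es1hNormFun L M H ℓ u).2)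
  have hg'ne : g' ≠ 0 := by
    rintro rfl
    exact hg'0 laurentOf_zero
  -- a section
  obtain ⟨rep, hrep⟩ : ∃ rep : gammaH L M H ⧸ subLevel L M H ℓ → gammaH L M H,
      ∀ q, ((rep q : gammaH L M H) : gammaH L M H ⧸ subLevel L M H ℓ) = q :=
    ⟨Quotient.out, Quotient.out_eq'⟩
  -- `a' · hProd g = g' · hProd a`
  have hcr := hcross rep hrep u a g ⟨ha, hg, hg0, hq⟩ a' g' ha' hg' hq'
  -- the root
  have hrootP := es1g1hProd_rel (L := L) (M := M) (H := H) (ℓ := ℓ) rep hroot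
  have hmda' : MDiff a' := ha'.mdiff
  have hmdg' : MDiff g' := hg'.mdiff
  have hmdg : MDiff g := hg.mdiff
  have hmdRa : MDiff (es1g1hProd L M H ℓ rep R.a) := es1g1h_mdiff_prod rep R.mdiff_a
  have hmdRg : MDiff (es1g1hProd L M H ℓ rep R.g) := es1g1h_mdiff_prod rep R.mdiff_g
  have hmdPg : MDiff (es1g1hProd L M H ℓ rep g) := es1g1h_mdiff_prod rep hmdg
  have hPg0 : es1g1hProd L M H ℓ rep g ≠ 0 := es1g1h_prod_ne_zero rep hmdg hg0
  have hfin : ∀ τ : ℍ, es1g1hProd L M H ℓ rep R.a τ ^ n * g' τ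
      = a' τ * es1g1hProd L M H ℓ rep R.g τ ^ n := by
    refine mdiff_mul_right_cancel (F := fun τ => es1g1hProd L M H ℓ rep R.a τ ^ n * g' τ)
      (G := fun τ => a' τ * es1g1hProd L M H ℓ rep R.g τ ^ n)
      ((hmdRa.pow n).mul hmdg') (hmda'.mul (hmdRg.pow n)) hmdPg hPg0 fun τ => ?_
    have h1 := hrootP τ
    have h2 := hcr τ
    show es1g1hProd L M H ℓ rep R.a τ ^ n * g' τ * es1g1hProd L M H ℓ rep g τ
      = a' τ * es1g1hProd L M H ℓ rep R.g τ ^ n * es1g1hProd L M H ℓ rep g τ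
    linear_combination g' τ * h1 - es1g1hProd L M H ℓ rep R.g τ ^ n * h2
  -- assembly
  refine ⟨es1hNormFun L M H ℓ u, a', g', es1g1hRoot hML rep hrep R, hK',
    ⟨ha', hg', hg'ne, hq'⟩, hfin, ?_⟩
  rw [es1g1hRoot_multAdd, hχ]

/-- **(H): Hecke-equivariance of the multiplier relation**, from the seam `StmtHKbCross`. -/
theorem es1g1h_muHeckeH_of_cross (hML : M ∣ L)
    (hcross : ∀ (ℓ : ℕ) [NeZero ℓ], ℓ.Prime → ¬ ℓ ∣ L → StmtHKbCross L M H ℓ) :
    MuHeckeH L M H hML := by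
  intro ℓ _ hℓ hℓL n _ x χ h
  exact es1g1h_muRelH_hecke hML ℓ (hcross ℓ hℓ hℓL) h

end Fermat.Agent.ES1
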