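import Fermat.Agent.ES1.G1.HeckeProdH
import Fermat.Agent.ES1.G1.HKbPlan
import Fermat.Agent.ES1.G1.MuHeckeH
import Fermat.Agent.ES1.G1.DiamAn
import Fermat.Agent.ES1.G2.DegH
import Fermat.Agent.ES1.G2.SwapH
import Fermat.Agent.ES1.Conj

/-!
# ES₁ / G1-HKb-NORM, explicit route — `StmtHKbCross` and `MuHeckeH` (helper82)

* `es1g1hp_stmtHKbCross hML hℓ hℓL : StmtHKbCross L M H ℓ` (the seam of `ES1/G1/HKbPlan.lean`);
* **`es1g1h_muHeckeH hML : MuHeckeH L M H hML`**, unconditionally.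

Proof of the seam.  `ι (N_α (β u)) = kronHeckeD ℓ ζ (ι u) (ι (δ_ℓ u))` (G2, `StmtHeckeNormH`, with
`δ_ℓ` the diamond automorphism `⟨ℓ⟩`); `ι (δ_ℓ u) = laurentOf (a ∘ σ) / laurentOf (g ∘ σ)` for
`σ = (ℓ, k; L, w)` (`es1g1dm_core`, helper36); `laurentOf (hProd f) = kronHeckeD ℓ ζ (laurentOf f)
(laurentOf (f ∘ σ))` (`es1g1hp_laurentOf`); `kronHeckeD` is multiplicative; `laurentOf` is
injective on `merInf`.
-/

set_option autoImplicit false
set_option linter.style.haveILetI false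

noncomputable section

namespace Fermat.Agent.ES1

open UpperHalfPlane CongruenceSubgroup ModularCurve AlgebraicCurve
open Fermat.Agent.S23 Fermat.Agent.S24 Fermat.Agent.S28 Fermat.Agent.ES Fermat.Agent.ES.RC
open Fermat.Agent.ES1.G2
open scoped MatrixGroups Manifold

/-- `kronHeckeD` commutes with a change of coefficients. -/
theorem es1g1hp_coeffMap_kronHeckeD {K K' : Type*} [Field K] [Field K'] (φ : K →+* K') (ℓ : ℕ)
    [NeZero ℓ] (ζ : Kˣ) (f g : LaurentSeries K) :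
    coeffMap φ (kronHeckeD ℓ ζ f g)
      = kronHeckeD ℓ (Units.map (φ : K →* K') ζ) (coeffMap φ f) (coeffMap φ g) := by
  rw [kronHeckeD, kronHeckeD, map_mul, coeffMap_kronNorm, coeffMap_qExpand]

variable {L M : ℕ} [NeZero L] [NeZero M] {H : Subgroup (ZMod M)ˣ} {ℓ : ℕ} [NeZero ℓ]

/-- **HKb-NORM (cross form)**, by the explicit section. -/
theorem es1g1hp_stmtHKbCross (hML : M ∣ L) (hℓ : ℓ.Prime) (hℓL : ¬ ℓ ∣ L) :
    StmtHKbCross L M H ℓ := by
  intro rep hrep u a g hfrac a' g' ha' hg' hq'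
  obtain ⟨ha, hg, hg0, hq⟩ := hfrac
  -- Bézout
  have hcop : Nat.Coprime ℓ L := (Nat.Prime.coprime_iff_not_dvd hℓ).mpr hℓL
  obtain ⟨w, k', hwk⟩ : IsCoprime (ℓ : ℤ) (L : ℤ) := Nat.isCoprime_iff_coprime.mpr hcop
  obtain ⟨k, h⟩ : ∃ k : ℤ, (ℓ : ℤ) * w - (L : ℤ) * k = 1 := ⟨-k', by linear_combination hwk⟩
  have hσL := es1g1hpSig_mem_gamma0 L ℓ k w h
  have hσM := es1g1hpSig_mem_gamma0' L ℓ k w h hML
  -- the diamond `⟨ℓ⟩`
  have hcopM : Nat.Coprime ℓ M := Nat.Coprime.coprime_dvd_right hML hcop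
  obtain ⟨c, hc⟩ : ∃ c : (ZMod M)ˣ, (c : ZMod M) = (ℓ : ZMod M) :=
    ⟨ZMod.unitOfCoprime ℓ hcopM, ZMod.coe_unitOfCoprime ℓ hcopM⟩
  have hσc : diamHom M ⟨es1g1hpSig L ℓ k w h, hσM⟩ = c :=
    Units.ext ((es1g1hpSig_diam L ℓ k w h hML).trans hc.symm)
  obtain ⟨δ, hδ⟩ := stmtDiamondBarH_of_diamond stmtDiamondH L M H (NeZero.ne L) hML c
  -- the roots of unity
  obtain ⟨ζ, hζ⟩ := Fermat.Agent.ES.G2.frob_exists_primitiveRoot ℓ hℓ.ne_zero
  obtain ⟨ζC, hζCdef⟩ : ∃ ζC : ℂˣ, ζC = Units.map ((embC : Kb →+* ℂ) : Kb →* ℂ) ζ := ⟨_, rfl⟩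
  have hζC : IsPrimitiveRoot ζC ℓ := by
    rw [hζCdef]
    exact hζ.map_of_injective (Units.map_injective (f := ((embC : Kb →+* ℂ) : Kb →* ℂ))
      embC.injective)
  -- the norm in `q`-expansions
  have hHN := stmtHeckeNormH_of_swap_of_diamond stmtSwapH stmtDiamondH L M H ℓ (NeZero.ne L) hML
    hℓ hℓL c hc δ hδ ζ hζ u
  have hu' : coeffMap embC ((es1hNormFun L M H ℓ u : fieldBar L M H) : LaurentSeries Kb)
      = kronHeckeD ℓ ζC (coeffMap embC (u : LaurentSeries Kb))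
          (coeffMap embC ((δ u : fieldBar L M H) : LaurentSeries Kb)) := by
    rw [hζCdef, ← es1g1hp_coeffMap_kronHeckeD, ← hHN]
    rfl
  -- the diamond, analytically
  have hδq := es1g1dm_core hML H (es1g1hpSig L ℓ k w h) hσL hσM hσc hδ u ha hg hq
  -- the Hecke products
  have hLa := es1g1hp_laurentOf H hML k w h hℓ hℓL rep hrep ζC hζC ha
  have hLg := es1g1hp_laurentOf H hML k w h hℓ hℓL rep hrep ζC hζC hg
  have hMa := es1g1hp_isMerInf H hML hℓ hℓL rep hrep ha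
  have hMg := es1g1hp_isMerInf H hML hℓ hℓL rep hrep hg
  have hq2 : coeffMap embC ((es1hNormFun L M H ℓ u : fieldBar L M H) : LaurentSeries Kb)
        * laurentOf (es1g1hProd L M H ℓ rep g)
      = laurentOf (es1g1hProd L M H ℓ rep a) := by
    rw [hu', hLa, hLg, ← kronHeckeD_mul ζC hζC, hq, hδq]
  -- `a' · hProd g = g' · hProd a`
  have hcross : a' * es1g1hProd L M H ℓ rep g = g' * es1g1hProd L M H ℓ rep a := by
    apply laurentOf_injective ((es1rc_isMerInf H ha').mul hMg) ((es1rc_isMerInf H hg').mul hMa)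
    rw [laurentOf_mul (es1rc_isMerInf H ha') hMg, laurentOf_mul (es1rc_isMerInf H hg') hMa,
      ← hq', ← hq2]
    ring
  intro τ
  exact congrFun hcross τ

/-- **(H): Hecke-equivariance of the multiplier map**, unconditionally:
`μ (T_ℓ x) = heckeGrp ℓ (μ x)` for the primes `ℓ ∤ L`. -/
theorem es1g1h_muHeckeH (hML : M ∣ L) : MuHeckeH L M H hML :=
  es1g1h_muHeckeH_of_cross hML fun _ _ hℓ hℓL => es1g1hp_stmtHKbCross hML hℓ hℓL

end Fermat.Agent.ES1
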