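import Fermat.Agent.ES1.RCGamma
import Fermat.Agent.ES1.RCNorm
import Fermat.Agent.ES1.RCPt
import Fermat.Agent.ES1.RealDefs
import Fermat.Agent.ES1.HeckeGrp
import Fermat.Agent.ES1.G2.DiamBar

/-!
# ES₁ / G1, piece HKb-NORM, part 2 (helper81): the conjugate embeddings of the function field

`Γ = gammaH L M H`, `N ≤ Γ` a normal subgroup of finite index of `SL(2, ℤ)`,
`E = AlgebraicClosure (Frac (modFunAlgG N))`.

* `es1g1hkbComp` : `f ↦ f ∘ δ`, `modFunAlgG Γ → modFunAlgG N`, for every `δ ∈ SL(2, ℤ)`;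
* `es1g1hkbEmb δ : fieldC ℂ L M H →+* E`, the extension of `f ↦ [f ∘ δ]` to the fraction field;
* `es1g1hkbEmb_mul_eq` : if `y · laurentOf G = laurentOf A` then `emb δ y · [G ∘ δ] = [A ∘ δ]`;
* `es1g1hkb_mem_of_emb_eq` : if `emb δ₁` and `emb δ₂` agree on `ι (fieldBar L M H)` then
  `δ₁ δ₂⁻¹ ∈ Γ` (separation);
* `es1g1hkbEmb_inclusion` : for `δ ∈ Γ` the embedding `emb δ` of level `L ℓ` restricts to
  `emb 1` of level `L`.
-/

set_option autoImplicit false
set_option linter.style.haveILetI false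
set_option linter.unusedSectionVars false

noncomputable section

namespace Fermat.Agent.ES1

open UpperHalfPlane ModularForm CongruenceSubgroup ModularCurve AlgebraicCurve HahnSeries
open Fermat.Agent.S23 Fermat.Agent.S24 Fermat.Agent.S28 Fermat.Agent.ES Fermat.Agent.ES.RC
open scoped MatrixGroups

/-! ### Composition with `δ` -/

section Comp

variable {Γ₁ N : Subgroup SL(2, ℤ)}

theorem es1g1hkb_isModFunG_comp [Γ₁.FiniteIndex] [N.FiniteIndex] (hN : N ≤ Γ₁)
    (hnorm : N.Normal) (δ : SL(2, ℤ)) {f : ℍ → ℂ} (hf : IsModFunG Γ₁ f) :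
    IsModFunG N (fun z => f (δ • z)) :=
  es1rcnorm_comp_conj hf δ fun γ hγ => hN (hnorm.conj_mem γ hγ δ)

/-- `f ↦ f ∘ δ` -/
def es1g1hkbComp [Γ₁.FiniteIndex] [N.FiniteIndex] (hN : N ≤ Γ₁) (hnorm : N.Normal)
    (δ : SL(2, ℤ)) : modFunAlgG Γ₁ →ₐ[ℂ] modFunAlgG N where
  toFun f := ⟨fun z => (f : ℍ → ℂ) (δ • z), es1g1hkb_isModFunG_comp hN hnorm δ f.2⟩
  map_one' := rfl
  map_mul' _ _ := rfl
  map_zero' := rfl
  map_add' _ _ := rfl
  commutes' _ := rfl

@[simp]
theorem es1g1hkbComp_apply [Γ₁.FiniteIndex] [N.FiniteIndex] (hN : N ≤ Γ₁) (hnorm : N.Normal)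
    (δ : SL(2, ℤ)) (f : modFunAlgG Γ₁) (z : ℍ) :
    ((es1g1hkbComp hN hnorm δ f : modFunAlgG N) : ℍ → ℂ) z = (f : ℍ → ℂ) (δ • z) := rfl

theorem es1g1hkbComp_injective [Γ₁.FiniteIndex] [N.FiniteIndex] (hN : N ≤ Γ₁)
    (hnorm : N.Normal) (δ : SL(2, ℤ)) : Function.Injective (es1g1hkbComp hN hnorm δ) := by
  intro f g h
  apply Subtype.ext
  funext z
  have h1 := congrFun (congrArg Subtype.val h) (δ⁻¹ • z)
  simpa [es1g1hkbComp, smul_smul] using h1

end Comp

/-! ### The big field -/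

section BigField

variable (N : Subgroup SL(2, ℤ))

/-- an algebraically closed field containing the modular functions for `N` -/
abbrev Es1g1hkbE : Type := AlgebraicClosure (FractionRing (modFunAlgG N))

/-- `modFunAlgG N → E` -/
def es1g1hkbToE : modFunAlgG N →+* Es1g1hkbE N :=
  (algebraMap (FractionRing (modFunAlgG N)) (Es1g1hkbE N)).comp
    (algebraMap (modFunAlgG N) (FractionRing (modFunAlgG N)))

theorem es1g1hkbToE_injective : Function.Injective (es1g1hkbToE N) :=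
  (algebraMap (FractionRing (modFunAlgG N)) (Es1g1hkbE N)).injective.comp
    (IsFractionRing.injective _ _)

end BigField

/-! ### The embeddings -/

section Emb

variable {L M : ℕ} [NeZero L] (hML : M ∣ L) (H : Subgroup (ZMod M)ˣ)
  {N : Subgroup SL(2, ℤ)} [N.FiniteIndex] (hN : N ≤ gammaH L M H) (hnorm : N.Normal)
  (δ : SL(2, ℤ))

/-- `f ↦ [f ∘ δ]` -/
def es1g1hkbPre : modFunAlgG (gammaH L M H) →+* Es1g1hkbE N :=
  haveI := es1rc_finiteIndex hML H
  (es1g1hkbToE N).comp (es1g1hkbComp hN hnorm δ).toRingHom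

theorem es1g1hkbPre_apply (f : modFunAlgG (gammaH L M H)) :
    es1g1hkbPre hML H hN hnorm δ f
      = es1g1hkbToE N ⟨fun z => (f : ℍ → ℂ) (δ • z),
          haveI := es1rc_finiteIndex hML H
          es1g1hkb_isModFunG_comp hN hnorm δ f.2⟩ := rfl

theorem es1g1hkbPre_injective : Function.Injective (es1g1hkbPre hML H hN hnorm δ) := by
  haveI := es1rc_finiteIndex hML H
  exact (es1g1hkbToE_injective N).comp (es1g1hkbComp_injective hN hnorm δ)

/-- the value of `pre δ` on a `δ`-invariant function -/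
theorem es1g1hkbPre_of_invariant {f : ℍ → ℂ} (hf : IsModFunG (gammaH L M H) f)
    (hinv : ∀ z, f (δ • z) = f z) :
    es1g1hkbPre hML H hN hnorm δ ⟨f, hf⟩ = es1g1hkbToE N ⟨f, hf.mono hN⟩ := by
  rw [es1g1hkbPre_apply]
  congr 1
  exact Subtype.ext (funext hinv)

/-- **the conjugate embedding** `emb δ : fieldC ℂ L M H → E`, extending `f ↦ [f ∘ δ]` -/
def es1g1hkbEmb : fieldC ℂ L M H →+* Es1g1hkbE N :=
  letI := es1rcAlgebra hML H
  haveI := es1rc_isFractionRing hML H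
  IsFractionRing.lift (A := modFunAlgG (gammaH L M H)) (K := fieldC ℂ L M H)
    (g := es1g1hkbPre hML H hN hnorm δ) (es1g1hkbPre_injective hML H hN hnorm δ)

theorem es1g1hkbEmb_toField (f : modFunAlgG (gammaH L M H)) :
    es1g1hkbEmb hML H hN hnorm δ (es1rcToField hML H f) = es1g1hkbPre hML H hN hnorm δ f := by
  letI := es1rcAlgebra hML H
  haveI := es1rc_isFractionRing hML H
  exact IsFractionRing.lift_algebraMap (A := modFunAlgG (gammaH L M H))
    (K := fieldC ℂ L M H) (es1g1hkbPre_injective hML H hN hnorm δ) f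

/-- **the universal property**: if `y · laurentOf G = laurentOf A` then
`emb δ y · [G ∘ δ] = [A ∘ δ]` -/
theorem es1g1hkbEmb_mul_eq (y : fieldC ℂ L M H) {A G : ℍ → ℂ}
    (hA : IsModFunG (gammaH L M H) A) (hG : IsModFunG (gammaH L M H) G)
    (h : (y : LaurentSeries ℂ) * laurentOf G = laurentOf A) :
    es1g1hkbEmb hML H hN hnorm δ y * es1g1hkbPre hML H hN hnorm δ ⟨G, hG⟩
      = es1g1hkbPre hML H hN hnorm δ ⟨A, hA⟩ := by
  have h1 : y * es1rcToField hML H ⟨G, hG⟩ = es1rcToField hML H ⟨A, hA⟩ := Subtype.ext h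
  rw [← es1g1hkbEmb_toField, ← es1g1hkbEmb_toField, ← map_mul, h1]

/-- the embeddings are the identity on the constants -/
theorem es1g1hkbEmb_algebraMap (c : ℂ) :
    es1g1hkbEmb hML H hN hnorm δ (algebraMap ℂ (fieldC ℂ L M H) c)
      = es1g1hkbToE N (algebraMap ℂ (modFunAlgG N) c) := by
  rw [← (es1rcToField hML H).commutes c, es1g1hkbEmb_toField]
  rfl

/-- **separation**: if `emb δ₁` and `emb δ₂` agree on the image of `fieldBar L M H` then
`δ₁ δ₂⁻¹ ∈ Γ` -/
theorem es1g1hkb_mem_of_emb_eq (δ₁ δ₂ : SL(2, ℤ))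
    (h : ∀ x : fieldBar L M H, es1g1hkbEmb hML H hN hnorm δ₁ (iotaH L M H x)
      = es1g1hkbEmb hML H hN hnorm δ₂ (iotaH L M H x)) :
    δ₁ * δ₂⁻¹ ∈ gammaH L M H := by
  have h1 : es1g1hkbEmb hML H hN hnorm δ₁ = es1g1hkbEmb hML H hN hnorm δ₂ := by
    refine G2.diamb_ringHom_ext_adjoin _ (fieldC ℂ L M H) rfl _ _ (fun c => ?_) ?_
    · rw [es1g1hkbEmb_algebraMap, es1g1hkbEmb_algebraMap]
    · rintro x (⟨d, hd, hdL, hx⟩ | ⟨e, he, a, heL, hx⟩)
      · have hmem : qExpand (AlgebraicClosure ℚ) d (jqModC (AlgebraicClosure ℚ))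
            ∈ fieldBar L M H := by
          rw [es1f_fieldBar_eq]
          exact jd_mem_fieldC (AlgebraicClosure ℚ) L M H hdL
        have hx' : x = iotaH L M H ⟨_, hmem⟩ :=
          Subtype.ext (by rw [hx]; exact (coeffMap_jqNModC embC d).symm)
        rw [hx']
        exact h _
      · have hmem : qExpand (AlgebraicClosure ℚ) e (sS (AlgebraicClosure ℚ) M H a)
            ∈ fieldBar L M H := by
          rw [es1f_fieldBar_eq]
          exact qExpand_sS_mem (AlgebraicClosure ℚ) L M H heL a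
        have hx' : x = iotaH L M H ⟨_, hmem⟩ :=
          Subtype.ext (by rw [hx]; exact (es1f_coeffMap_qExpand_sS embC M H a e).symm)
        rw [hx']
        exact h _
  apply es1rc_sepG hML H
  intro f z
  have h2 : es1g1hkbPre hML H hN hnorm δ₁ f = es1g1hkbPre hML H hN hnorm δ₂ f := by
    rw [← es1g1hkbEmb_toField, ← es1g1hkbEmb_toField, h1]
  rw [es1g1hkbPre_apply, es1g1hkbPre_apply] at h2
  have h3 := es1g1hkbToE_injective N h2
  have h4 := congrFun (congrArg Subtype.val h3) (δ₂⁻¹ • z)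
  simp only [smul_inv_smul] at h4
  rw [mul_smul]
  exact h4

end Emb

/-! ### Compatibility of the levels `L` and `L ℓ` -/

section Levels

variable {L M : ℕ} [NeZero L] (hML : M ∣ L) (H : Subgroup (ZMod M)ˣ) (ℓ : ℕ) [NeZero ℓ]
  {N : Subgroup SL(2, ℤ)} [N.FiniteIndex] (hN : N ≤ gammaH (L * ℓ) M H) (hnorm : N.Normal)

theorem es1g1hkb_neZero_mul : NeZero (L * ℓ) := ⟨mul_ne_zero (NeZero.ne L) (NeZero.ne ℓ)⟩

theorem es1g1hkb_gammaH_mul_le : gammaH (L * ℓ) M H ≤ gammaH L M H :=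
  gammaH_mono_level (dvd_mul_right L ℓ) M H

/-- for `δ ∈ Γ`, the embedding `emb δ` of level `L ℓ` restricts to `emb 1` of level `L` -/
theorem es1g1hkbEmb_inclusion {δ : SL(2, ℤ)} (hδ : δ ∈ gammaH L M H) (x : fieldC ℂ L M H)
    (x' : fieldC ℂ (L * ℓ) M H) (hx : (x' : LaurentSeries ℂ) = (x : LaurentSeries ℂ)) :
    haveI := es1g1hkb_neZero_mul (L := L) ℓ
    es1g1hkbEmb (Dvd.dvd.mul_right hML ℓ) H hN hnorm δ x'
      = es1g1hkbEmb hML H (hN.trans (es1g1hkb_gammaH_mul_le H ℓ)) hnorm 1 x := by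
  haveI := es1g1hkb_neZero_mul (L := L) ℓ
  obtain ⟨a, g, ha, hg, hg0, hxag⟩ := es1rc_exists_frac H x.2
  have hle := es1g1hkb_gammaH_mul_le (L := L) H ℓ
  have hgne : g ≠ 0 := by
    rintro rfl
    exact hg0 laurentOf_zero
  have h1 := es1g1hkbEmb_mul_eq (Dvd.dvd.mul_right hML ℓ) H hN hnorm δ x' (ha.mono hle)
    (hg.mono hle) (by rw [hx]; exact hxag)
  have h2 := es1g1hkbEmb_mul_eq hML H (hN.trans hle) hnorm 1 x ha hg hxag
  rw [es1g1hkbPre_of_invariant _ _ _ _ _ (hg.mono hle) (fun z => hg.comp_smul hδ z),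
    es1g1hkbPre_of_invariant _ _ _ _ _ (ha.mono hle) (fun z => ha.comp_smul hδ z)] at h1
  rw [es1g1hkbPre_of_invariant _ _ _ _ _ hg (fun z => by rw [one_smul]),
    es1g1hkbPre_of_invariant _ _ _ _ _ ha (fun z => by rw [one_smul])] at h2
  have hne : es1g1hkbToE N ⟨g, (hg.mono hle).mono hN⟩ ≠ 0 := by
    intro h0
    apply hgne
    have h3 := es1g1hkbToE_injective N (h0.trans (map_zero _).symm)
    exact congrArg Subtype.val h3
  exact mul_right_cancel₀ hne (h1.trans h2.symm)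

end Levels

end Fermat.Agent.ES1
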