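import Fermat.Agent.ES1.G1.HKbNorm
import Fermat.Agent.ES1.G1.MuHeckeH
import Fermat.Agent.ES1.G2.DegH
import Fermat.Agent.ES1.Conj

/-!
# ES₁ / G1, piece HKb, final (helper81): `MuHeckeH L M H hML`, unconditionally

`es1g1hkb_muHeckeH hML : MuHeckeH L M H hML` — the multiplier map is Hecke-equivariant,
`μ (T_ℓ x) = heckeGrp ℓ (μ x)` for the primes `ℓ ∤ L`.

Inputs: the degree `[F_{Lℓ} : F_L] = ℓ + 1` (`G2.stmtDegH_of_diamond`, from F3-conj
`stmtDiamondH`), HKb-NORM (`stmtHKbCross_of_degH`), HKb-MULT and the assembly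
(`es1g1h_muHeckeH_of_cross`, helper82).
-/

set_option autoImplicit false

noncomputable section

namespace Fermat.Agent.ES1

open CongruenceSubgroup
open scoped MatrixGroups

/-- the degree `[F_{Lℓ} : F_L] = ℓ + 1`, unconditionally -/
theorem es1g1hkb_stmtDegH : G2.StmtDegH := G2.stmtDegH_of_diamond stmtDiamondH

/-- **HKb-NORM**, unconditionally -/
theorem es1g1hkb_stmtHKbCross {L M : ℕ} [NeZero L] [NeZero M] (H : Subgroup (ZMod M)ˣ)
    {ℓ : ℕ} [NeZero ℓ] (hML : M ∣ L) (hℓ : ℓ.Prime) (hℓL : ¬ ℓ ∣ L) :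
    StmtHKbCross L M H ℓ :=
  stmtHKbCross_of_degH H es1g1hkb_stmtDegH hML hℓ hℓL

/-- **(H): Hecke-equivariance of the multiplier map.** -/
theorem es1g1hkb_muHeckeH {L M : ℕ} [NeZero L] [NeZero M] (H : Subgroup (ZMod M)ˣ)
    (hML : M ∣ L) : MuHeckeH L M H hML :=
  es1g1h_muHeckeH_of_cross hML fun _ _ hℓ hℓL => es1g1hkb_stmtHKbCross H hML hℓ hℓL

end Fermat.Agent.ES1
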