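import Fermat.Agent.ES1.HeckeGrp

/-!
# ES₁ / G1, piece HKb-NORM, part 1 (helper81): the index of `Γ' = gammaH (L ℓ) M H` in
`Γ = gammaH L M H` is at least `ℓ + 1`

* `es1g1hkb_mem_gammaH_mul_iff` : for `γ ∈ Γ`, `γ ∈ Γ' ↔ ℓ ∣ γ₁₀` (`ℓ` prime to `L`);
* `es1g1hkb_index_ge` : `ℓ + 1 ≤ [Γ : Γ']`, by the explicit left cosets of `(1 0; L b 1)`,
  `b < ℓ`, and `(x ℓ, -y; L, 1)`, `x ℓ + y L = 1`.
-/

set_option autoImplicit false
set_option linter.style.haveILetI false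

noncomputable section

namespace Fermat.Agent.ES1

open CongruenceSubgroup Matrix Matrix.SpecialLinearGroup
open scoped MatrixGroups

/-- the lower left entry of `s⁻¹ t` -/
theorem es1g1hkb_inv_mul_10 (s t : SL(2, ℤ)) :
    (s⁻¹ * t) 1 0 = s 0 0 * t 1 0 - s 1 0 * t 0 0 := by
  have h1 : (s⁻¹ * t) 1 0 = (s⁻¹ : SL(2, ℤ)) 1 0 * t 0 0 + (s⁻¹ : SL(2, ℤ)) 1 1 * t 1 0 := by
    have := (two_mul_expl (s⁻¹ : SL(2, ℤ)).1 t.1).2.2.1
    simpa using this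
  rw [h1, Matrix.SpecialLinearGroup.SL2_inv_expl s]
  simp
  ring

/-- `(1 0; c 1)` -/
def es1g1hkbLow (c : ℤ) : SL(2, ℤ) := ⟨!![1, 0; c, 1], by simp [Matrix.det_fin_two_of]⟩

@[simp] theorem es1g1hkbLow_00 (c : ℤ) : es1g1hkbLow c 0 0 = 1 := rfl
@[simp] theorem es1g1hkbLow_10 (c : ℤ) : es1g1hkbLow c 1 0 = c := rfl

/-- `(x ℓ, -y; L, 1)`, of determinant `x ℓ + y L = 1` -/
def es1g1hkbInf (L ℓ : ℕ) (x y : ℤ) (h : x * ℓ + y * L = 1) : SL(2, ℤ) :=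
  ⟨!![x * ℓ, -y; L, 1], by rw [Matrix.det_fin_two_of]; linear_combination h⟩

@[simp] theorem es1g1hkbInf_00 (L ℓ : ℕ) (x y : ℤ) (h : x * ℓ + y * L = 1) :
    es1g1hkbInf L ℓ x y h 0 0 = x * ℓ := rfl
@[simp] theorem es1g1hkbInf_10 (L ℓ : ℕ) (x y : ℤ) (h : x * ℓ + y * L = 1) :
    es1g1hkbInf L ℓ x y h 1 0 = L := rfl

section Index

variable (L M : ℕ) (H : Subgroup (ZMod M)ˣ) (ℓ : ℕ)

/-- an element of `Γ₀(L)` with upper left entry `≡ 1` mod `L` is in `Γ` -/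
theorem es1g1hkb_mem_gammaH_of (hML : M ∣ L) {γ : SL(2, ℤ)} (h10 : (L : ℤ) ∣ γ 1 0)
    (h00 : (L : ℤ) ∣ γ 0 0 - 1) : γ ∈ gammaH L M H := by
  have hM : γ ∈ Gamma0 M := mem_gamma0_of_dvd ((Int.natCast_dvd_natCast.mpr hML).trans h10)
  refine ⟨mem_gamma0_of_dvd h10, hM, ?_⟩
  have : diamHom M ⟨γ, hM⟩ = 1 := by
    ext
    rw [coe_diamHom]
    have h1 : (M : ℤ) ∣ γ 0 0 - 1 := (Int.natCast_dvd_natCast.mpr hML).trans h00
    have h2 : (((γ 0 0 - 1 : ℤ) : ℤ) : ZMod M) = 0 :=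
      (ZMod.intCast_zmod_eq_zero_iff_dvd _ _).mpr h1
    push_cast at h2
    simpa [sub_eq_zero] using h2
  rw [this]
  exact one_mem _

variable {L M H ℓ}

/-- for `γ ∈ Γ` : `γ ∈ Γ' ↔ ℓ ∣ γ₁₀` -/
theorem es1g1hkb_mem_gammaH_mul_iff (hℓL : Nat.Coprime ℓ L) {γ : SL(2, ℤ)}
    (hγ : γ ∈ gammaH L M H) : γ ∈ gammaH (L * ℓ) M H ↔ (ℓ : ℤ) ∣ γ 1 0 := by
  constructor
  · exact dvd_of_mem_gammaH_mul H ℓ
  · intro h
    refine ⟨mem_gamma0_of_dvd ?_, hγ.2⟩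
    have h1 : (L : ℤ) ∣ γ 1 0 := dvd_of_mem_gamma0 hγ.1
    have hc : IsCoprime (L : ℤ) (ℓ : ℤ) := Nat.isCoprime_iff_coprime.mpr hℓL.symm
    push_cast
    exact hc.mul_dvd h1 h

variable (L M H ℓ)

/-- **`[Γ : Γ'] ≥ ℓ + 1`** -/
theorem es1g1hkb_index_ge [NeZero L] [NeZero M] [NeZero ℓ] (hML : M ∣ L) (hℓ : ℓ.Prime)
    (hℓL : ¬ ℓ ∣ L) : ℓ + 1 ≤ (subLevel L M H ℓ).index := by
  classical
  have hcop : Nat.Coprime ℓ L := (Nat.Prime.coprime_iff_not_dvd hℓ).mpr hℓL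
  have hℓ' : Prime (ℓ : ℤ) := Nat.prime_iff_prime_int.mp hℓ
  have hℓLz : ¬ (ℓ : ℤ) ∣ (L : ℤ) := fun h => hℓL (Int.natCast_dvd_natCast.mp h)
  obtain ⟨x, y, hxy⟩ : ∃ x y : ℤ, x * ℓ + y * L = 1 := Nat.isCoprime_iff_coprime.mpr hcop
  -- the representatives
  have hlow : ∀ b : ℤ, es1g1hkbLow ((L : ℤ) * b) ∈ gammaH L M H := fun b =>
    es1g1hkb_mem_gammaH_of L M H hML (by simp) (by simp)
  have hinf : es1g1hkbInf L ℓ x y hxy ∈ gammaH L M H :=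
    es1g1hkb_mem_gammaH_of L M H hML (by simp)
      (by rw [es1g1hkbInf_00]; exact ⟨-y, by linear_combination hxy⟩)
  let f : Option (ZMod ℓ) → gammaH L M H := fun i =>
    match i with
    | none => ⟨es1g1hkbInf L ℓ x y hxy, hinf⟩
    | some b => ⟨es1g1hkbLow ((L : ℤ) * ((b.val : ℕ) : ℤ)), hlow _⟩
  have key : ∀ i j : Option (ZMod ℓ),
      (ℓ : ℤ) ∣ (((f i : gammaH L M H) : SL(2, ℤ))⁻¹ * ((f j : gammaH L M H) : SL(2, ℤ))) 1 0 →
        i = j := by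
    intro i j h
    rw [es1g1hkb_inv_mul_10] at h
    cases i with
    | none =>
      cases j with
      | none => rfl
      | some b =>
        exfalso
        simp only [f, es1g1hkbInf_00, es1g1hkbInf_10, es1g1hkbLow_00, es1g1hkbLow_10] at h
        have h1 : (ℓ : ℤ) ∣ (L : ℤ) := by
          have h2 : (ℓ : ℤ) ∣ x * ℓ * ((L : ℤ) * ((b.val : ℕ) : ℤ)) :=
            Dvd.dvd.mul_right (Dvd.intro_left x rfl) _
          have h3 := (Int.dvd_iff_dvd_of_dvd_sub h).mp h2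
          simpa using h3
        exact hℓLz h1
    | some b =>
      cases j with
      | none =>
        exfalso
        simp only [f, es1g1hkbInf_00, es1g1hkbInf_10, es1g1hkbLow_00, es1g1hkbLow_10] at h
        have h1 : (ℓ : ℤ) ∣ (L : ℤ) := by
          have h2 : (ℓ : ℤ) ∣ (L : ℤ) * ((b.val : ℕ) : ℤ) * (x * ℓ) :=
            Dvd.dvd.mul_left (Dvd.intro_left x rfl) _
          have h3 := (Int.dvd_iff_dvd_of_dvd_sub h).mpr h2
          simpa using h3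
        exact hℓLz h1
      | some b' =>
        simp only [f, es1g1hkbLow_00, es1g1hkbLow_10] at h
        have h1 : (ℓ : ℤ) ∣ (L : ℤ) * (((b'.val : ℕ) : ℤ) - ((b.val : ℕ) : ℤ)) := by
          have : 1 * ((L : ℤ) * ((b'.val : ℕ) : ℤ)) - (L : ℤ) * ((b.val : ℕ) : ℤ) * 1
              = (L : ℤ) * (((b'.val : ℕ) : ℤ) - ((b.val : ℕ) : ℤ)) := by ring
          rwa [this] at h
        have h2 : (ℓ : ℤ) ∣ ((b'.val : ℕ) : ℤ) - ((b.val : ℕ) : ℤ) :=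
          (hℓ'.dvd_or_dvd h1).resolve_left hℓLz
        have h3 : (((b'.val : ℕ) : ℤ) : ZMod ℓ) = (((b.val : ℕ) : ℤ) : ZMod ℓ) :=
          (ZMod.intCast_eq_intCast_iff_dvd_sub _ _ _).mpr (by
            have := (dvd_neg (a := (ℓ : ℤ))).mpr h2
            simpa using this)
        have h4 : b' = b := by simpa using h3
        rw [h4]
  have hinj : Function.Injective
      (fun i : Option (ZMod ℓ) => (QuotientGroup.mk (f i) : gammaH L M H ⧸ subLevel L M H ℓ)) := by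
    intro i j h
    have h1 : (f i)⁻¹ * f j ∈ subLevel L M H ℓ := QuotientGroup.eq.mp h
    rw [Subgroup.mem_subgroupOf] at h1
    exact key i j (dvd_of_mem_gammaH_mul H ℓ h1)
  letI : Fintype (gammaH L M H ⧸ subLevel L M H ℓ) := Subgroup.fintypeQuotientOfFiniteIndex
  have hcard := Fintype.card_le_of_injective _ hinj
  rw [Fintype.card_option, ZMod.card] at hcard
  rwa [Subgroup.index_eq_card, Nat.card_eq_fintype_card]

end Index

end Fermat.Agent.ES1
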