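import Fermat.Agent.ES1.G1.HKbPlan
import Fermat.Agent.ES1.G1.HKbIndex
import Fermat.Agent.ES1.G1.HKbEmb
import Fermat.Agent.ES1.RCGammaA
import Fermat.Agent.ES1.RCAllAlg
import Fermat.Agent.ES1.G2.Plan
import Fermat.Agent.ES.G2.HeckeNormCore

/-!
# ES₁ / G1, piece HKb-NORM, part 3 (helper81): the norm `N_α (β u)` analytically

`Γ = gammaH L M H`, `Γ' = gammaH (L ℓ) M H`, `ℓ ∤ L` prime.  If `[F_{Lℓ} : F_L] = ℓ + 1`
(`G2.StmtDegH`) then the `[Γ : Γ']` conjugate embeddings `y ↦ y ∘ (rep q)⁻¹` of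
`F_{Lℓ} = fieldBar (L ℓ) M H` into `E` are pairwise distinct (separation), `[Γ : Γ'] ≥ ℓ + 1`,
hence they are ALL the `F_L`-embeddings and the norm is their product:

* `es1g1hkb_cross_of_deg` : `StmtHKbCross L M H ℓ` from the degree;
* `stmtHKbCross_of_degH : G2.StmtDegH → StmtHKbCross L M H ℓ`.
-/

set_option autoImplicit false
set_option linter.style.haveILetI false
set_option linter.unusedSectionVars false

noncomputable section

namespace Fermat.Agent.ES1

open UpperHalfPlane ModularForm CongruenceSubgroup ModularCurve AlgebraicCurve HahnSeries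
open Fermat.Agent.S23 Fermat.Agent.S24 Fermat.Agent.S28 Fermat.Agent.ES Fermat.Agent.ES.RC
open Fermat.Agent.ES.G2 Fermat.Agent.ES1.G2
open scoped MatrixGroups

attribute [local instance] Subgroup.fintypeQuotientOfFiniteIndex

section Norm

variable {L M : ℕ} [NeZero L] [NeZero M] (H : Subgroup (ZMod M)ˣ) {ℓ : ℕ} [NeZero ℓ]

/-- `V_ℓ` : `f ↦ f (ℓ τ)` maps the modular functions for `Γ` to those for `Γ'` -/
theorem es1g1hkb_isModFunG_scale (hML : M ∣ L) {f : ℍ → ℂ} (hf : IsModFunG (gammaH L M H) f) :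
    IsModFunG (gammaH (L * ℓ) M H) (fun z => f (scaleN ℓ z)) := by
  haveI := es1g1hkb_neZero_mul (L := L) ℓ
  haveI := es1rc_finiteIndex hML H
  haveI := es1rc_finiteIndex (Dvd.dvd.mul_right hML ℓ) H
  exact es1rc_isModFunG_comp_scaleN ℓ hf fun γ hγ =>
    ⟨dvd_of_mem_gammaH_mul H ℓ hγ, conjAlphaSL_mem_gammaH H ℓ (NeZero.ne ℓ) hML hγ⟩

/-- `β u = (a ∘ V_ℓ) / (g ∘ V_ℓ)` analytically -/
theorem es1g1hkb_beta_frac {u : fieldBar L M H} {a g : ℍ → ℂ}
    (h : IsAnFracH L M H u a g) :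
    coeffMap embC ((es1hBeta L M H ℓ u : fieldBar (L * ℓ) M H) :
        LaurentSeries (AlgebraicClosure ℚ)) * laurentOf (fun z => g (scaleN ℓ z))
      = laurentOf (fun z => a (scaleN ℓ z)) := by
  obtain ⟨ha, hg, -, hq⟩ := h
  rw [coe_es1hBeta, ModularCurve.coeffMap_qExpand, laurentOf_comp_scaleN ℓ (es1rc_isMerInf H hg),
    laurentOf_comp_scaleN ℓ (es1rc_isMerInf H ha), ← map_mul, hq]

set_option synthInstance.maxHeartbeats 400000 in
set_option maxHeartbeats 1000000 in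
/-- **HKb-NORM** from the degree `[F_{Lℓ} : F_L] = ℓ + 1`. -/
theorem es1g1hkb_cross_of_deg (hML : M ∣ L) (hℓ : ℓ.Prime) (hℓL : ¬ ℓ ∣ L)
    (hdeg : @Module.finrank (fieldBar L M H) (fieldBar (L * ℓ) M H) _ _
      (@Algebra.toModule _ _ _ _ (es1hAlpha L M H ℓ).toAlgebra) = ℓ + 1) :
    StmtHKbCross L M H ℓ := by
  classical
  intro rep hrep u a g hfrac a' g' ha' hg' hq' τ
  haveI hne := es1g1hkb_neZero_mul (L := L) ℓ
  have hML' : M ∣ L * ℓ := Dvd.dvd.mul_right hML ℓ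
  haveI hfi := es1rc_finiteIndex hML H
  haveI hfi' := es1rc_finiteIndex hML' H
  have hle := es1g1hkb_gammaH_mul_le (L := L) H ℓ
  -- the normal core
  obtain ⟨N, hNdef⟩ : ∃ N : Subgroup SL(2, ℤ), N = (gammaH (L * ℓ) M H).normalCore := ⟨_, rfl⟩
  have hN : N ≤ gammaH (L * ℓ) M H := hNdef ▸ Subgroup.normalCore_le _
  have hnorm : N.Normal := hNdef ▸ Subgroup.normalCore_normal _
  haveI hNfi : N.FiniteIndex := by rw [hNdef]; infer_instance
  -- the embeddings
  let base : fieldBar L M H →+* Es1g1hkbE N :=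
    (es1g1hkbEmb hML H (hN.trans hle) hnorm 1).comp (iotaH L M H)
  let e : gammaH L M H ⧸ subLevel L M H ℓ → (fieldBar (L * ℓ) M H →+* Es1g1hkbE N) := fun q =>
    (es1g1hkbEmb hML' H hN hnorm (((rep q : gammaH L M H) : SL(2, ℤ)))⁻¹).comp
      (iotaH (L * ℓ) M H)
  have hcomm : ∀ q x, e q (es1hAlpha L M H ℓ x) = base x := by
    intro q x
    exact es1g1hkbEmb_inclusion hML H ℓ hN hnorm ((gammaH L M H).inv_mem (rep q).2)
      (iotaH L M H x) (iotaH (L * ℓ) M H (es1hAlpha L M H ℓ x))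
      (by rw [iotaH_coe, iotaH_coe, coe_es1hAlpha])
  have hinj : ∀ q q', e q = e q' → q = q' := by
    intro q q' h
    have h1 := es1g1hkb_mem_of_emb_eq hML' H hN hnorm
      (((rep q : gammaH L M H) : SL(2, ℤ)))⁻¹ (((rep q' : gammaH L M H) : SL(2, ℤ)))⁻¹
      (fun x => congrFun (congrArg DFunLike.coe h) x)
    rw [inv_inv] at h1
    have h2 : (rep q)⁻¹ * rep q' ∈ subLevel L M H ℓ := by
      rw [Subgroup.mem_subgroupOf]
      exact h1
    rw [← hrep q, ← hrep q']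
    exact QuotientGroup.eq.mpr h2
  -- the algebra structures
  let algF' : Algebra (fieldBar L M H) (fieldBar (L * ℓ) M H) := (es1hAlpha L M H ℓ).toAlgebra
  let algE : Algebra (fieldBar L M H) (Es1g1hkbE N) := base.toAlgebra
  have hfin : FiniteDimensional (fieldBar L M H) (fieldBar (L * ℓ) M H) :=
    Module.finite_of_finrank_pos (by rw [hdeg]; omega)
  have : CharZero (fieldBar L M H) :=
    charZero_of_injective_algebraMap (algebraMap (AlgebraicClosure ℚ) (fieldBar L M H)).injective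
  have hsep : Algebra.IsSeparable (fieldBar L M H) (fieldBar (L * ℓ) M H) := inferInstance
  let eA : gammaH L M H ⧸ subLevel L M H ℓ →
      (fieldBar (L * ℓ) M H →ₐ[fieldBar L M H] Es1g1hkbE N) := fun q =>
    { e q with commutes' := fun x => hcomm q x }
  have heA : Function.Injective eA := by
    intro q q' h
    apply hinj
    have := congrArg (fun g : fieldBar (L * ℓ) M H →ₐ[fieldBar L M H] Es1g1hkbE N =>
      (g : fieldBar (L * ℓ) M H →+* Es1g1hkbE N)) h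
    exact this
  have hcard : Fintype.card (gammaH L M H ⧸ subLevel L M H ℓ)
      = Module.finrank (fieldBar L M H) (fieldBar (L * ℓ) M H) := by
    apply le_antisymm
    · have h1 := Fintype.card_le_of_injective eA heA
      rwa [AlgHom.card (fieldBar L M H) (fieldBar (L * ℓ) M H) (Es1g1hkbE N)] at h1
    · rw [hdeg]
      have h2 := es1g1hkb_index_ge L M H ℓ hML hℓ hℓL
      rwa [Subgroup.index_eq_card, Nat.card_eq_fintype_card] at h2
  have key := hn_norm_eq_prod_of_injective eA heA hcard (es1hBeta L M H ℓ u)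
  have key' : base (es1hNormFun L M H ℓ u)
      = ∏ q : gammaH L M H ⧸ subLevel L M H ℓ, e q (es1hBeta L M H ℓ u) := key
  -- the analytic fractions
  obtain ⟨ha, hg, hg0, hq⟩ := hfrac
  have haV := es1g1hkb_isModFunG_scale (ℓ := ℓ) H hML ha
  have hgV := es1g1hkb_isModFunG_scale (ℓ := ℓ) H hML hg
  have hβ := es1g1hkb_beta_frac (ℓ := ℓ) H ⟨ha, hg, hg0, hq⟩
  have hq1 : ∀ q : gammaH L M H ⧸ subLevel L M H ℓ,
      e q (es1hBeta L M H ℓ u)
        * es1g1hkbPre hML' H hN hnorm (((rep q : gammaH L M H) : SL(2, ℤ)))⁻¹ ⟨_, hgV⟩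
      = es1g1hkbPre hML' H hN hnorm (((rep q : gammaH L M H) : SL(2, ℤ)))⁻¹ ⟨_, haV⟩ :=
    fun q => es1g1hkbEmb_mul_eq hML' H hN hnorm _ (iotaH (L * ℓ) M H (es1hBeta L M H ℓ u))
      haV hgV hβ
  have hq2 : base (es1hNormFun L M H ℓ u) * es1g1hkbToE N ⟨g', hg'.mono (hN.trans hle)⟩
      = es1g1hkbToE N ⟨a', ha'.mono (hN.trans hle)⟩ := by
    have h1 := es1g1hkbEmb_mul_eq hML H (hN.trans hle) hnorm 1
      (iotaH L M H (es1hNormFun L M H ℓ u)) ha' hg' hq'
    rwa [es1g1hkbPre_of_invariant _ _ _ _ _ hg' (fun z => by rw [one_smul]),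
      es1g1hkbPre_of_invariant _ _ _ _ _ ha' (fun z => by rw [one_smul])] at h1
  -- the product
  have hprod : (∏ q : gammaH L M H ⧸ subLevel L M H ℓ, e q (es1hBeta L M H ℓ u))
        * es1g1hkbToE N (∏ q : gammaH L M H ⧸ subLevel L M H ℓ,
            es1g1hkbComp hN hnorm (((rep q : gammaH L M H) : SL(2, ℤ)))⁻¹ ⟨_, hgV⟩)
      = es1g1hkbToE N (∏ q : gammaH L M H ⧸ subLevel L M H ℓ,
            es1g1hkbComp hN hnorm (((rep q : gammaH L M H) : SL(2, ℤ)))⁻¹ ⟨_, haV⟩) := by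
    rw [map_prod, map_prod, ← Finset.prod_mul_distrib]
    exact Finset.prod_congr rfl fun q _ => hq1 q
  have hcross : (⟨a', ha'.mono (hN.trans hle)⟩ : modFunAlgG N)
        * (∏ q : gammaH L M H ⧸ subLevel L M H ℓ,
            es1g1hkbComp hN hnorm (((rep q : gammaH L M H) : SL(2, ℤ)))⁻¹ ⟨_, hgV⟩)
      = (⟨g', hg'.mono (hN.trans hle)⟩ : modFunAlgG N)
        * (∏ q : gammaH L M H ⧸ subLevel L M H ℓ,
            es1g1hkbComp hN hnorm (((rep q : gammaH L M H) : SL(2, ℤ)))⁻¹ ⟨_, haV⟩) := by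
    apply es1g1hkbToE_injective N
    rw [map_mul, map_mul, ← hprod, ← hq2, key']
    ring
  have hev := congrArg (es1rcallEv N τ) hcross
  rw [map_mul, map_mul, map_prod, map_prod] at hev
  rw [es1g1hProd_apply, es1g1hProd_apply]
  exact hev

/-- **HKb-NORM** : `StmtDegH → StmtHKbCross`. -/
theorem stmtHKbCross_of_degH (hdeg : G2.StmtDegH) (hML : M ∣ L) (hℓ : ℓ.Prime)
    (hℓL : ¬ ℓ ∣ L) : StmtHKbCross L M H ℓ :=
  es1g1hkb_cross_of_deg H hML hℓ hℓL (hdeg L M H ℓ (NeZero.ne L) hML hℓ hℓL)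

end Norm

end Fermat.Agent.ES1
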