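import Fermat.Agent.ES1.G1.HeckeRootH
import Fermat.Agent.ES1.G1.HKbIndex
import Fermat.Agent.ES1.RCGamma
import Fermat.Agent.ES1.G2.KronD
import Fermat.Agent.ES.RC.HeckeProdLaurent

/-!
# ES₁ / G1-HKb-NORM, explicit route — the Hecke product in `q`-expansions (helper82)

`Γ = gammaH L M H`, `Γ' = subLevel L M H ℓ`, `ℓ` prime, `ℓ ∤ L`, `ℓ w − L k = 1`.

* `es1g1hpSig = (ℓ, k; L, w) ∈ Γ₀(L) ∩ Γ₀(M)`, `diamHom σ = ℓ`;
* `es1g1hpT b = (1, b + k; L, L b + ℓ w) ∈ Γ`, `es1g1hpS b = (es1g1hpT b)⁻¹`;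
  `es1g1hp_scaleN_T` : `ℓ · (t_b τ) = σ · (τ + b)/ℓ`;
* `es1g1hpEquiv : Option (ZMod ℓ) ≃ Γ ⧸ Γ'`, `none ↦ [1]`, `some j ↦ [s_j]`;
* `es1g1hp_prod_eq` : for a `Γ`-invariant `f` and ANY section `rep`,
  `hProd rep f τ = f(ℓ τ) · ∏_{b<ℓ} (f ∘ σ)((τ + b)/ℓ)`;
* `es1g1hp_isMerInf`, `es1g1hp_laurentOf` : for `f` modular for `Γ`,
  `laurentOf (hProd rep f) = kronHeckeD ℓ ζ (laurentOf f) (laurentOf (f ∘ σ))`.
-/

set_option autoImplicit false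
set_option linter.unusedSectionVars false
set_option linter.style.haveILetI false

noncomputable section

namespace Fermat.Agent.ES1

open UpperHalfPlane CongruenceSubgroup Matrix Matrix.SpecialLinearGroup ModularCurve
open Fermat.Agent.S23 Fermat.Agent.S28 Fermat.Agent.ES Fermat.Agent.ES.RC Fermat.Agent.ES1.G2
open scoped MatrixGroups Manifold

attribute [local instance] Subgroup.fintypeQuotientOfFiniteIndex

/-! ## The explicit matrices -/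

section Mat

variable (L ℓ : ℕ) (k w : ℤ) (h : (ℓ : ℤ) * w - (L : ℤ) * k = 1)

/-- `σ = (ℓ, k; L, w)` -/
def es1g1hpSig : SL(2, ℤ) :=
  ⟨!![(ℓ : ℤ), k; (L : ℤ), w], by rw [Matrix.det_fin_two_of]; linear_combination h⟩

/-- `t_b = (1, b + k; L, L b + ℓ w)` -/
def es1g1hpT (b : ℤ) : SL(2, ℤ) :=
  ⟨!![1, b + k; (L : ℤ), (L : ℤ) * b + (ℓ : ℤ) * w], by
    rw [Matrix.det_fin_two_of]; linear_combination h⟩

/-- `s_b = t_b⁻¹ = (L b + ℓ w, -(b + k); -L, 1)` -/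
def es1g1hpS (b : ℤ) : SL(2, ℤ) :=
  ⟨!![(L : ℤ) * b + (ℓ : ℤ) * w, -(b + k); -(L : ℤ), 1], by
    rw [Matrix.det_fin_two_of]; linear_combination h⟩

@[simp] theorem es1g1hpSig_00 : es1g1hpSig L ℓ k w h 0 0 = (ℓ : ℤ) := rfl
@[simp] theorem es1g1hpSig_01 : es1g1hpSig L ℓ k w h 0 1 = k := rfl
@[simp] theorem es1g1hpSig_10 : es1g1hpSig L ℓ k w h 1 0 = (L : ℤ) := rfl
@[simp] theorem es1g1hpSig_11 : es1g1hpSig L ℓ k w h 1 1 = w := rfl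

@[simp] theorem es1g1hpT_00 (b : ℤ) : es1g1hpT L ℓ k w h b 0 0 = 1 := rfl
@[simp] theorem es1g1hpT_01 (b : ℤ) : es1g1hpT L ℓ k w h b 0 1 = b + k := rfl
@[simp] theorem es1g1hpT_10 (b : ℤ) : es1g1hpT L ℓ k w h b 1 0 = (L : ℤ) := rfl
@[simp] theorem es1g1hpT_11 (b : ℤ) :
    es1g1hpT L ℓ k w h b 1 1 = (L : ℤ) * b + (ℓ : ℤ) * w := rfl

@[simp] theorem es1g1hpS_00 (b : ℤ) :
    es1g1hpS L ℓ k w h b 0 0 = (L : ℤ) * b + (ℓ : ℤ) * w := rfl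
@[simp] theorem es1g1hpS_01 (b : ℤ) : es1g1hpS L ℓ k w h b 0 1 = -(b + k) := rfl
@[simp] theorem es1g1hpS_10 (b : ℤ) : es1g1hpS L ℓ k w h b 1 0 = -(L : ℤ) := rfl
@[simp] theorem es1g1hpS_11 (b : ℤ) : es1g1hpS L ℓ k w h b 1 1 = 1 := rfl

theorem es1g1hpS_inv (b : ℤ) : (es1g1hpS L ℓ k w h b)⁻¹ = es1g1hpT L ℓ k w h b := by
  rw [Matrix.SpecialLinearGroup.SL2_inv_expl]
  apply Subtype.ext
  show !![(es1g1hpS L ℓ k w h b) 1 1, -(es1g1hpS L ℓ k w h b) 0 1;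
      -(es1g1hpS L ℓ k w h b) 1 0, (es1g1hpS L ℓ k w h b) 0 0]
    = !![1, b + k; (L : ℤ), (L : ℤ) * b + (ℓ : ℤ) * w]
  simp

theorem es1g1hpSig_mem_gamma0 : es1g1hpSig L ℓ k w h ∈ Gamma0 L :=
  mem_gamma0_of_dvd (by rw [es1g1hpSig_10])

theorem es1g1hpSig_mem_gamma0' {M : ℕ} (hML : M ∣ L) : es1g1hpSig L ℓ k w h ∈ Gamma0 M :=
  mem_gamma0_of_dvd (by rw [es1g1hpSig_10]; exact Int.natCast_dvd_natCast.mpr hML)

theorem es1g1hpSig_diam {M : ℕ} (hML : M ∣ L) :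
    ((diamHom M ⟨es1g1hpSig L ℓ k w h, es1g1hpSig_mem_gamma0' L ℓ k w h hML⟩ : (ZMod M)ˣ) :
      ZMod M) = (ℓ : ZMod M) := by
  rw [coe_diamHom]
  show (((es1g1hpSig L ℓ k w h) 0 0 : ℤ) : ZMod M) = _
  rw [es1g1hpSig_00]
  push_cast
  rfl

theorem es1g1hpS_mem {M : ℕ} (H : Subgroup (ZMod M)ˣ) (hML : M ∣ L) (b : ℤ) :
    es1g1hpS L ℓ k w h b ∈ gammaH L M H :=
  es1g1hkb_mem_gammaH_of L M H hML (by rw [es1g1hpS_10]; exact (dvd_neg).mpr dvd_rfl)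
    (by rw [es1g1hpS_00]; exact ⟨b + k, by linear_combination h⟩)

/-- `ℓ · (t_b τ) = σ · (τ + b)/ℓ` -/
theorem es1g1hp_scaleN_T [NeZero ℓ] (b : ℤ) (τ : ℍ) :
    scaleN ℓ (es1g1hpT L ℓ k w h b • τ)
      = es1g1hpSig L ℓ k w h • P8_betaPt 1 b (ℓ : ℤ) one_pos (rc_natCast_pos ℓ) τ :=
  P8_scaleN_smul ℓ (es1g1hpT L ℓ k w h b) (es1g1hpSig L ℓ k w h) 1 b (ℓ : ℤ) one_pos
    (rc_natCast_pos ℓ)
    (by rw [es1g1hpT_00, es1g1hpSig_00])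
    (by rw [es1g1hpT_01, es1g1hpSig_00, es1g1hpSig_01]; ring)
    (by rw [es1g1hpT_10, es1g1hpSig_10]; ring)
    (by rw [es1g1hpT_11, es1g1hpSig_10, es1g1hpSig_11]; ring) τ

end Mat

/-! ## The explicit section -/

section Section

variable {L M : ℕ} [NeZero L] [NeZero M] (H : Subgroup (ZMod M)ˣ) {ℓ : ℕ} [NeZero ℓ]
  (hML : M ∣ L) (k w : ℤ) (h : (ℓ : ℤ) * w - (L : ℤ) * k = 1)

/-- the explicit representatives: `none ↦ 1`, `some j ↦ s_j` -/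
def es1g1hpF : Option (ZMod ℓ) → gammaH L M H
  | none => 1
  | some j => ⟨es1g1hpS L ℓ k w h (j.val : ℤ), es1g1hpS_mem L ℓ k w h H hML _⟩

@[simp] theorem es1g1hpF_none : es1g1hpF H hML k w h none = 1 := rfl

@[simp] theorem es1g1hpF_some (j : ZMod ℓ) :
    ((es1g1hpF H hML k w h (some j) : gammaH L M H) : SL(2, ℤ))
      = es1g1hpS L ℓ k w h (j.val : ℤ) := rfl

theorem es1g1hp_mem_subLevel_iff (hcop : Nat.Coprime ℓ L) (γ : gammaH L M H) :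
    γ ∈ subLevel L M H ℓ ↔ (ℓ : ℤ) ∣ (γ : SL(2, ℤ)) 1 0 := by
  rw [Subgroup.mem_subgroupOf]
  exact es1g1hkb_mem_gammaH_mul_iff hcop γ.2

theorem es1g1hp_mk_eq_iff (hcop : Nat.Coprime ℓ L) (s t : gammaH L M H) :
    (QuotientGroup.mk s : gammaH L M H ⧸ subLevel L M H ℓ) = QuotientGroup.mk t
      ↔ (ℓ : ℤ) ∣ (s : SL(2, ℤ)) 0 0 * (t : SL(2, ℤ)) 1 0
          - (s : SL(2, ℤ)) 1 0 * (t : SL(2, ℤ)) 0 0 := by
  rw [QuotientGroup.eq, es1g1hp_mem_subLevel_iff H hcop]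
  have : (((s⁻¹ * t : gammaH L M H)) : SL(2, ℤ)) = (s : SL(2, ℤ))⁻¹ * (t : SL(2, ℤ)) := rfl
  rw [this, es1g1hkb_inv_mul_10]

theorem es1g1hpF_injective (hℓ : ℓ.Prime) (hℓL : ¬ ℓ ∣ L) :
    Function.Injective (fun o : Option (ZMod ℓ) =>
      (QuotientGroup.mk (es1g1hpF H hML k w h o) : gammaH L M H ⧸ subLevel L M H ℓ)) := by
  have hcop : Nat.Coprime ℓ L := (Nat.Prime.coprime_iff_not_dvd hℓ).mpr hℓL
  have hℓ' : Prime (ℓ : ℤ) := Nat.prime_iff_prime_int.mp hℓ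
  have hℓLz : ¬ (ℓ : ℤ) ∣ (L : ℤ) := fun h => hℓL (Int.natCast_dvd_natCast.mp h)
  intro i j hij
  have hd := (es1g1hp_mk_eq_iff H hcop _ _).mp hij
  cases i with
  | none =>
    cases j with
    | none => rfl
    | some b =>
      exfalso
      rw [es1g1hpF_none, es1g1hpF_some] at hd
      have h1 : ((((1 : gammaH L M H) : SL(2, ℤ))) 1 0 : ℤ) = 0 := rfl
      have h2 : ((((1 : gammaH L M H) : SL(2, ℤ))) 0 0 : ℤ) = 1 := rfl
      rw [h1, h2, es1g1hpS_10, one_mul, zero_mul, sub_zero] at hd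
      exact hℓLz ((dvd_neg).mp hd)
  | some a =>
    cases j with
    | none =>
      exfalso
      rw [es1g1hpF_none, es1g1hpF_some] at hd
      have h1 : ((((1 : gammaH L M H) : SL(2, ℤ))) 1 0 : ℤ) = 0 := rfl
      have h2 : ((((1 : gammaH L M H) : SL(2, ℤ))) 0 0 : ℤ) = 1 := rfl
      rw [h1, h2, es1g1hpS_10, mul_zero, zero_sub, mul_one, neg_neg] at hd
      exact hℓLz hd
    | some b =>
      rw [es1g1hpF_some, es1g1hpF_some] at hd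
      rw [es1g1hpS_00, es1g1hpS_10, es1g1hpS_10, es1g1hpS_00] at hd
      have h1 : ((L : ℤ) * ((a.val : ℕ) : ℤ) + (ℓ : ℤ) * w) * -(L : ℤ)
            - -(L : ℤ) * ((L : ℤ) * ((b.val : ℕ) : ℤ) + (ℓ : ℤ) * w)
          = (L : ℤ) * ((L : ℤ) * (((b.val : ℕ) : ℤ) - ((a.val : ℕ) : ℤ))) := by ring
      rw [h1] at hd
      have h2 : (ℓ : ℤ) ∣ ((b.val : ℕ) : ℤ) - ((a.val : ℕ) : ℤ) :=
        ((hℓ'.dvd_or_dvd ((hℓ'.dvd_or_dvd hd).resolve_left hℓLz))).resolve_left hℓLz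
      have h3 : (((a.val : ℕ) : ℤ) : ZMod ℓ) = (((b.val : ℕ) : ℤ) : ZMod ℓ) :=
        (ZMod.intCast_eq_intCast_iff_dvd_sub _ _ _).mpr h2
      have h4 : a = b := by simpa using h3
      rw [h4]

theorem es1g1hpF_surjective (hℓ : ℓ.Prime) (hℓL : ¬ ℓ ∣ L) :
    Function.Surjective (fun o : Option (ZMod ℓ) =>
      (QuotientGroup.mk (es1g1hpF H hML k w h o) : gammaH L M H ⧸ subLevel L M H ℓ)) := by
  haveI : Fact ℓ.Prime := ⟨hℓ⟩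
  have hcop : Nat.Coprime ℓ L := (Nat.Prime.coprime_iff_not_dvd hℓ).mpr hℓL
  intro q
  induction q using QuotientGroup.induction_on with
  | H g =>
    by_cases hg : (ℓ : ℤ) ∣ (g : SL(2, ℤ)) 1 0
    · refine ⟨none, ?_⟩
      show (QuotientGroup.mk (es1g1hpF H hML k w h none) : gammaH L M H ⧸ subLevel L M H ℓ)
        = QuotientGroup.mk g
      rw [es1g1hp_mk_eq_iff H hcop, es1g1hpF_none]
      have h1 : ((((1 : gammaH L M H) : SL(2, ℤ))) 1 0 : ℤ) = 0 := rfl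
      have h2 : ((((1 : gammaH L M H) : SL(2, ℤ))) 0 0 : ℤ) = 1 := rfl
      rw [h1, h2, one_mul, zero_mul, sub_zero]
      exact hg
    · have hg' : (((g : SL(2, ℤ)) 1 0 : ℤ) : ZMod ℓ) ≠ 0 := fun h0 =>
        hg ((ZMod.intCast_zmod_eq_zero_iff_dvd _ _).mp h0)
      refine ⟨some (-(((g : SL(2, ℤ)) 0 0 : ℤ) : ZMod ℓ) * ((((g : SL(2, ℤ)) 1 0 : ℤ) : ZMod ℓ))⁻¹),
        ?_⟩
      show (QuotientGroup.mk (es1g1hpF H hML k w h (some _)) : gammaH L M H ⧸ subLevel L M H ℓ)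
        = QuotientGroup.mk g
      rw [es1g1hp_mk_eq_iff H hcop, es1g1hpF_some, es1g1hpS_00, es1g1hpS_10]
      rw [← ZMod.intCast_zmod_eq_zero_iff_dvd]
      push_cast
      rw [ZMod.natCast_zmod_val, ZMod.natCast_self, zero_mul, add_zero]
      field_simp
      ring

/-- **the explicit description of `Γ ⧸ Γ'`** -/
def es1g1hpEquiv (hℓ : ℓ.Prime) (hℓL : ¬ ℓ ∣ L) :
    Option (ZMod ℓ) ≃ gammaH L M H ⧸ subLevel L M H ℓ :=
  Equiv.ofBijective _ ⟨es1g1hpF_injective H hML k w h hℓ hℓL,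
    es1g1hpF_surjective H hML k w h hℓ hℓL⟩

theorem es1g1hpEquiv_apply (hℓ : ℓ.Prime) (hℓL : ¬ ℓ ∣ L) (o : Option (ZMod ℓ)) :
    es1g1hpEquiv H hML k w h hℓ hℓL o = QuotientGroup.mk (es1g1hpF H hML k w h o) := rfl

/-- the explicit section -/
def es1g1hpRep (hℓ : ℓ.Prime) (hℓL : ¬ ℓ ∣ L) :
    gammaH L M H ⧸ subLevel L M H ℓ → gammaH L M H :=
  fun q => es1g1hpF H hML k w h ((es1g1hpEquiv H hML k w h hℓ hℓL).symm q)

theorem es1g1hpRep_spec (hℓ : ℓ.Prime) (hℓL : ¬ ℓ ∣ L) (q : gammaH L M H ⧸ subLevel L M H ℓ) :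
    ((es1g1hpRep H hML k w h hℓ hℓL q : gammaH L M H) : gammaH L M H ⧸ subLevel L M H ℓ) = q := by
  have := (es1g1hpEquiv H hML k w h hℓ hℓL).apply_symm_apply q
  rw [es1g1hpEquiv_apply] at this
  exact this

/-- the Hecke product for the explicit section -/
theorem es1g1hp_prod_rep (hℓ : ℓ.Prime) (hℓL : ¬ ℓ ∣ L) (f : ℍ → ℂ) (τ : ℍ) :
    es1g1hProd L M H ℓ (es1g1hpRep H hML k w h hℓ hℓL) f τ
      = f (scaleN ℓ τ) * rcNormFun ℓ (fun z => f (es1g1hpSig L ℓ k w h • z)) τ := by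
  rw [es1g1hProd_apply, ← Equiv.prod_comp (es1g1hpEquiv H hML k w h hℓ hℓL), Fintype.prod_option,
    rc_normFun_apply, ← rc_prod_zmod ℓ (fun b => f (es1g1hpSig L ℓ k w h • rcBeta ℓ b τ))]
  have hrep : ∀ o, es1g1hpRep H hML k w h hℓ hℓL (es1g1hpEquiv H hML k w h hℓ hℓL o)
      = es1g1hpF H hML k w h o := by
    intro o
    unfold es1g1hpRep
    rw [Equiv.symm_apply_apply]
  congr 1
  · unfold es1g1hPt
    rw [hrep, es1g1hpF_none]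
    simp
  · refine Finset.prod_congr rfl fun j _ => ?_
    unfold es1g1hPt
    rw [hrep, es1g1hpF_some, es1g1hpS_inv, es1g1hp_scaleN_T]
    rfl

include hML in
/-- **the Hecke product of a `Γ`-invariant function**, for any section:
`hProd f τ = f(ℓ τ) · ∏_{b<ℓ} (f ∘ σ)((τ + b)/ℓ)` -/
theorem es1g1hp_prod_eq (hℓ : ℓ.Prime) (hℓL : ¬ ℓ ∣ L)
    (rep : gammaH L M H ⧸ subLevel L M H ℓ → gammaH L M H)
    (hrep : ∀ q, ((rep q : gammaH L M H) : gammaH L M H ⧸ subLevel L M H ℓ) = q)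
    {f : ℍ → ℂ} (hf : ∀ γ ∈ gammaH L M H, ∀ z, f (γ • z) = f z) :
    es1g1hProd L M H ℓ rep f
      = (fun z => f (scaleN ℓ z)) * rcNormFun ℓ (fun z => f (es1g1hpSig L ℓ k w h • z)) := by
  rw [es1g1hProd_congr_rep hML rep (es1g1hpRep H hML k w h hℓ hℓL) hrep
    (es1g1hpRep_spec H hML k w h hℓ hℓL) hf]
  funext τ
  exact es1g1hp_prod_rep H hML k w h hℓ hℓL f τ

/-! ## `q`-expansions -/

include hML in
theorem es1g1hp_isMerInf (hℓ : ℓ.Prime) (hℓL : ¬ ℓ ∣ L)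
    (rep : gammaH L M H ⧸ subLevel L M H ℓ → gammaH L M H)
    (hrep : ∀ q, ((rep q : gammaH L M H) : gammaH L M H ⧸ subLevel L M H ℓ) = q)
    {f : ℍ → ℂ} (hf : IsModFunG (gammaH L M H) f) :
    IsMerInf (es1g1hProd L M H ℓ rep f) := by
  obtain ⟨w, k', hwk⟩ : IsCoprime (ℓ : ℤ) (L : ℤ) :=
    Nat.isCoprime_iff_coprime.mpr ((Nat.Prime.coprime_iff_not_dvd hℓ).mpr hℓL)
  obtain ⟨k, h⟩ : ∃ k : ℤ, (ℓ : ℤ) * w - (L : ℤ) * k = 1 := ⟨-k', by linear_combination hwk⟩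
  haveI := es1rc_finiteIndex hML H
  have hσ : IsModFunG (gammaH L M H) (fun z => f (es1g1hpSig L ℓ k w h • z)) :=
    hf.comp_normalizer _ fun γ hγ =>
      conj_mem_gammaH (es1g1hpSig_mem_gamma0 L ℓ k w h) (es1g1hpSig_mem_gamma0' L ℓ k w h hML) hγ
  rw [es1g1hp_prod_eq H hML k w h hℓ hℓL rep hrep (fun γ hγ z => hf.comp_smul hγ z)]
  exact (isMerInf_comp_scaleN ℓ (es1rc_isMerInf H hf)).mul
    (rc_isMerInf_normFun ℓ (es1rc_isMerInf H hσ))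

include hML in
/-- **the `q`-expansion of the Hecke product** -/
theorem es1g1hp_laurentOf (hℓ : ℓ.Prime) (hℓL : ¬ ℓ ∣ L)
    (rep : gammaH L M H ⧸ subLevel L M H ℓ → gammaH L M H)
    (hrep : ∀ q, ((rep q : gammaH L M H) : gammaH L M H ⧸ subLevel L M H ℓ) = q)
    (ζ : ℂˣ) (hζ : IsPrimitiveRoot ζ ℓ) {f : ℍ → ℂ} (hf : IsModFunG (gammaH L M H) f) :
    laurentOf (es1g1hProd L M H ℓ rep f)
      = kronHeckeD ℓ ζ (laurentOf f) (laurentOf (fun z => f (es1g1hpSig L ℓ k w h • z))) := by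
  haveI := es1rc_finiteIndex hML H
  have hσ : IsModFunG (gammaH L M H) (fun z => f (es1g1hpSig L ℓ k w h • z)) :=
    hf.comp_normalizer _ fun γ hγ =>
      conj_mem_gammaH (es1g1hpSig_mem_gamma0 L ℓ k w h) (es1g1hpSig_mem_gamma0' L ℓ k w h hML) hγ
  rw [es1g1hp_prod_eq H hML k w h hℓ hℓL rep hrep (fun γ hγ z => hf.comp_smul hγ z),
    laurentOf_mul (isMerInf_comp_scaleN ℓ (es1rc_isMerInf H hf))
      (rc_isMerInf_normFun ℓ (es1rc_isMerInf H hσ)),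
    laurentOf_comp_scaleN ℓ (es1rc_isMerInf H hf), rc_laurentOf_normFun ℓ (es1rc_isMerInf H hσ),
    kronHeckeD_eq_of_isPrimitiveRoot (rcRoot 1 (ℓ : ℤ)) ζ (rc_isPrimitiveRoot_root ℓ) hζ]
  rfl

end Section

end Fermat.Agent.ES1
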