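import Fermat.Agent.ES1.G1Plan
import Fermat.Agent.ES1.RootOfKummerG
import Fermat.Agent.ES1.RCGamma
import Fermat.Agent.ES1.G1.BaseChangeDownH
import Fermat.Agent.ES.DescentInj
import Fermat.Agent.ES.MuCore

/-!
# ES₁-G1, pieces E and I: `MuExistsH` and `MuInjH` (helper34; fork of `ES/MuCore.lean`)

`Γ = gammaH L M H`, `M ∣ L`.

* `es1g1e_muExistsH hML : MuExistsH L M H` — every `n`-torsion class of `J_H(L; M)(ℚ̄)` has a
  multiplier character: a Kummer function `u` (KB) is `a / g` analytically (`es1rc_exists_frac`),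
  its orders at all places of `fieldC ℂ L M H` are divisible by `n` (`es1r_bcd_dvd`), hence so are
  its orders on `ℍ` (`es1rc_stmtPtG`), hence `a / g` has a holomorphic `n`-th root on `ℍ`, a root
  datum (`exists_rootData_of_placesG`).
* `es1g1i_muInjH hML : MuInjH L M H` — a class with trivial multiplier character is zero: the
  `n`-th root is a modular function (`exists_pow_eq_of_mult_eq_oneG`), so `u` is an `n`-th power
  in `fieldC ℂ L M H`, hence in `fieldBar L M H` (`DescentInj`), hence the class is zero (KB).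
* `es1g1i_fieldC_le_baseChange` : `fieldC K L M H ≤ laurentBaseChange K (fieldQ L M H)` for every
  field `K` of characteristic `0`.
-/

set_option autoImplicit false
set_option linter.style.haveILetI false

noncomputable section

namespace Fermat.Agent.ES1

open ModularCurve AlgebraicCurve CongruenceSubgroup UpperHalfPlane
open Fermat.Agent.ES Fermat.Agent.S24 Fermat.Agent.S28 Fermat.Agent.ES.RC
open scoped MatrixGroups Manifold

attribute [local instance] algKbC

/-! ### Base change of the field -/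

/-- the field over `K` is contained in the base change of the field over `ℚ` -/
theorem es1g1i_fieldC_le_baseChange (K : Type*) [Field K] [Algebra ℚ K] (L M : ℕ)
    (H : Subgroup (ZMod M)ˣ) : fieldC K L M H ≤ laurentBaseChange K (fieldQ L M H) := by
  rw [fieldC, IntermediateField.adjoin_le_iff]
  rintro _ (⟨d, hd, hdN, rfl⟩ | ⟨e, he, a, heL, rfl⟩)
  · have h1 : qExpand K d (jqModC K) = coeffEmb K (qExpand ℚ d (jqModC ℚ)) :=
      (coeffMap_jqNModC (algebraMap ℚ K) d).symm
    rw [h1]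
    exact coeffEmb_mem_laurentBaseChange _ (jd_mem_fieldC ℚ L M H hdN)
  · have h1 : qExpand K e (sS K M H a) = coeffEmb K (qExpand ℚ e (sS ℚ M H a)) :=
      (es1f_coeffMap_qExpand_sS (algebraMap ℚ K) M H a e).symm
    rw [h1]
    exact coeffEmb_mem_laurentBaseChange _ (qExpand_sS_mem ℚ L M H heL a)

variable {L M : ℕ} [NeZero L] (hML : M ∣ L) (H : Subgroup (ZMod M)ˣ)

/-! ### (E) existence -/

include hML in
/-- **(E)** every `n`-torsion class of `J_H(L; M)(ℚ̄)` has a multiplier character. -/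
theorem es1g1e_muExistsH : MuExistsH L M H := by
  intro n hn x hx
  obtain ⟨u, hK⟩ := exists_kummerRel hx
  have hu0 : u ≠ 0 := hK.ne_zero
  have hdvd : ∀ v : Place Kb (fieldBar L M H), (n : ℤ) ∣ v.ord u := by
    obtain ⟨D, -, -, hD⟩ := hK
    intro v
    exact ⟨_, (hD v).symm⟩
  obtain ⟨a, g, ha, hg, hg', h⟩ := es1rc_exists_frac H (iotaH L M H u).2
  rw [iotaH_coe] at h
  have hιu : iotaH L M H u ≠ 0 := fun h0 => hu0 (iotaH_injective L M H (by rw [h0, map_zero]))
  have hg0 : g ≠ 0 := by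
    rintro rfl
    exact hg' laurentOf_zero
  have ha0 : a ≠ 0 := by
    rintro rfl
    rw [laurentOf_zero] at h
    rcases mul_eq_zero.mp h with h1 | h1
    · exact hιu (Subtype.ext h1)
    · exact hg' h1
  letI := es1rcAlgebra hML H
  haveI := es1rc_isScalarTower hML H
  haveI := es1rc_isFractionRing hML H
  set a' : modFunAlgG (gammaH L M H) := ⟨a, ha⟩ with ha'
  set g' : modFunAlgG (gammaH L M H) := ⟨g, hg⟩ with hg''
  have ha'0 : a' ≠ 0 := fun h0 => ha0 (congrArg Subtype.val h0)
  have hg'0 : g' ≠ 0 := fun h0 => hg0 (congrArg Subtype.val h0)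
  have hquot : algebraMap (modFunAlgG (gammaH L M H)) (fieldC ℂ L M H) a' /
      algebraMap (modFunAlgG (gammaH L M H)) (fieldC ℂ L M H) g' = iotaH L M H u := by
    rw [div_eq_iff (algebraMap_modFunAlgG_ne_zero (gammaH L M H) _ hg'0)]
    apply Subtype.ext
    exact h.symm
  have hU : ∀ w : Place ℂ (fieldC ℂ L M H),
      (n : ℤ) ∣ w.ord (algebraMap (modFunAlgG (gammaH L M H)) (fieldC ℂ L M H) a' /
        algebraMap (modFunAlgG (gammaH L M H)) (fieldC ℂ L M H) g') := by
    intro w
    rw [hquot]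
    exact es1r_bcd_dvd L M H n u hdvd w
  obtain ⟨R, hRg, hRpow⟩ := exists_rootData_of_placesG (gammaH L M H) (fieldC ℂ L M H)
    (Nat.pos_iff_ne_zero.mp hn) (es1rc_stmtPtG hML H) ha'0 hg'0 hU
  refine ⟨R.multAdd, u, a, g, R, hK, ⟨ha, hg, hg0, h⟩, fun τ => ?_, rfl⟩
  rw [hRg, hRpow τ]
  obtain ⟨m, rfl⟩ : ∃ m, n = m + 1 := Nat.exists_eq_succ_of_ne_zero (Nat.pos_iff_ne_zero.mp hn)
  simp only [Nat.add_sub_cancel]
  show a τ * g τ ^ m * g τ = a τ * g τ ^ (m + 1)
  ring

/-! ### (I) injectivity -/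

include hML in
/-- **(I)** a torsion class with trivial multiplier character is zero. -/
theorem es1g1i_muInjH : MuInjH L M H := by
  rintro n hn x ⟨u, a, g, R, hK, ⟨ha, hg, hg0, h⟩, hpow, hχ⟩
  have hn0 : n ≠ 0 := Nat.pos_iff_ne_zero.mp hn
  have hu0 : u ≠ 0 := hK.ne_zero
  have hιu : iotaH L M H u ≠ 0 := fun h0 => hu0 (iotaH_injective L M H (by rw [h0, map_zero]))
  have hg' : laurentOf g ≠ 0 := by
    intro h0
    exact hg0 ((laurentOf_eq_zero_iff (es1rc_isMerInf H hg)).mp h0)
  have ha0 : a ≠ 0 := by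
    rintro rfl
    rw [laurentOf_zero] at h
    rcases mul_eq_zero.mp h with h1 | h1
    · exact hιu (Subtype.ext h1)
    · exact hg' h1
  have hRmult : R.mult = 1 := by
    ext1 γ
    have := DFunLike.congr_fun hχ (Additive.ofMul γ)
    exact this
  -- the root datum with denominator `g`
  have hord := dvd_ordPt_sub_of_pow_eq (IsModFunG.mdiff ha) (IsModFunG.mdiff hg)
    R.mdiff_a R.mdiff_g ha0 hg0 R.a_ne_zero R.g_ne_zero hpow
  obtain ⟨D, hDg, hDpow⟩ := exists_rootData_of_modFunG hn0 ha hg ha0 hg0 hord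
  have hDR : D.mult = R.mult := by
    refine D.mult_eq_of_pow_eq R fun τ => ?_
    obtain ⟨m, rfl⟩ : ∃ m, n = m + 1 := Nat.exists_eq_succ_of_ne_zero hn0
    have h1 := hDpow τ
    have h2 := hpow τ
    simp only [Nat.add_sub_cancel] at h1
    rw [mul_pow, mul_pow, h1, hDg]
    linear_combination (-(g τ ^ m)) * h2
  have hDmult : D.mult = 1 := hDR.trans hRmult
  haveI : (gammaH L M H).FiniteIndex := es1rc_finiteIndex hML H
  letI := es1rcAlgebra hML H
  haveI := es1rc_isScalarTower hML H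
  haveI := es1rc_isFractionRing hML H
  set a' : modFunAlgG (gammaH L M H) := ⟨a, ha⟩ with ha'
  set g' : modFunAlgG (gammaH L M H) := ⟨g, hg⟩ with hg''
  have hg'0 : g' ≠ 0 := fun h0 => hg0 (congrArg Subtype.val h0)
  have hquot : algebraMap (modFunAlgG (gammaH L M H)) (fieldC ℂ L M H) a' /
      algebraMap (modFunAlgG (gammaH L M H)) (fieldC ℂ L M H) g' = iotaH L M H u := by
    rw [div_eq_iff (algebraMap_modFunAlgG_ne_zero (gammaH L M H) _ hg'0)]
    apply Subtype.ext
    exact h.symm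
  obtain ⟨k, hk⟩ := exists_pow_eq_of_mult_eq_oneG (gammaH L M H) (fieldC ℂ L M H) D hDmult
    (a := a') (g := g') hg'0 hDg hDpow
  rw [hquot] at hk
  -- descent to `fieldBar`
  have hk' : (k : LaurentSeries ℂ) ^ n
      = coeffMap (algebraMap Kb ℂ) (u : LaurentSeries (AlgebraicClosure ℚ)) := by
    have := congrArg Subtype.val hk
    exact this
  have hkmem : (k : LaurentSeries ℂ) ∈ laurentBaseChange ℂ (fieldQ L M H) :=
    es1g1i_fieldC_le_baseChange ℂ L M H k.2
  obtain ⟨w', hw', -, hw'pow⟩ :=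
    DescentInj.exists_root_mem_laurentBaseChange (K := Kb) (L := ℂ) (fieldQ L M H)
      hn0 hkmem hk'
  have hu : u = 1 * (⟨w', hw'⟩ : fieldBar L M H) ^ n := by
    rw [one_mul]
    apply Subtype.ext
    exact hw'pow.symm
  rw [hu] at hK
  exact hK.eq_zero_of_pow hn0 (fun v => v.ord_one)

end Fermat.Agent.ES1
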