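import Fermat.Agent.ES1.G1Plan
import Fermat.Agent.ES1.G1.DiamAn
import Fermat.Agent.ES1.G1.HeckeKummerH
import Fermat.Agent.ES1.Conj

/-!
# ES₁ / G1-DM — diamond-equivariance of the multiplier map (captain helper36)

`muDiamH (hL : L ≠ 0) (hML : M ∣ L) : MuDiamH L M H` :
`μ (⟨c⟩ x) = diamGrp σ (μ x)` for `σ ∈ Γ₀(L) ∩ Γ₀(M)` with `σ₀₀ ≡ c` mod `M`.
-/

set_option autoImplicit false

noncomputable section

namespace Fermat.Agent.ES1

open UpperHalfPlane ModularForm CongruenceSubgroup ModularCurve AlgebraicCurve HahnSeries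
open Fermat.Agent.S23 Fermat.Agent.S24 Fermat.Agent.S28 Fermat.Agent.ES Fermat.Agent.ES.RC
open Fermat.Agent.ES1.G2
open scoped MatrixGroups

/-- **G1-DM, relative form**: for every diamond automorphism `δ` of `fieldBar L M H`. -/
theorem muRelH_diamondJ {L M : ℕ} {H : Subgroup (ZMod M)ˣ} (hL : L ≠ 0) (hML : M ∣ L)
    {c : (ZMod M)ˣ} {σ : SL(2, ℤ)} (hσL : σ ∈ Gamma0 L) (hσM : σ ∈ Gamma0 M)
    (hc : diamHom M ⟨σ, hσM⟩ = c) {δ : fieldBar L M H ≃ₐ[QbH] fieldBar L M H}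
    (hδ : IsDiamondH L M H c δ) {n : ℕ} {x : JH L M H} {χ : CharGrpH L M H}
    (h : MuRelH L M H n x χ) :
    MuRelH L M H n (diamondJ δ x) (diamGrp L M H σ hσL hσM χ) := by
  haveI : NeZero L := ⟨hL⟩
  obtain ⟨u, a, g, R, hK, ⟨ha, hg, hg0, hfrac⟩, hroot, hmult⟩ := h
  refine ⟨δ u, fun z => a (σ • z), fun z => g (σ • z),
    es1g1dmRoot R σ (fun _ hγ => conj_mem_gammaH hσL hσM hγ),
    es1h_kummerRel_diamond δ hK,
    ⟨es1g1dm_isModFunG_comp hML H σ hσL hσM ha, es1g1dm_isModFunG_comp hML H σ hσL hσM hg,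
      ?_, es1g1dm_core hML H σ hσL hσM hc hδ u ha hg hfrac⟩,
    fun τ => hroot (σ • τ), ?_⟩
  · intro h0
    apply hg0
    funext z
    have := congrFun h0 (σ⁻¹ • z)
    simpa [smul_smul] using this
  · rw [es1g1dmRoot_multAdd R σ hσL hσM, hmult]

/-- **(D) diamond-equivariance of the multiplier.** -/
theorem muDiamH {L M : ℕ} (H : Subgroup (ZMod M)ˣ) (hL : L ≠ 0) (hML : M ∣ L) :
    MuDiamH L M H := by
  intro c σ hσL hσM hc n _ x χ h
  obtain ⟨δ, hδ⟩ := stmtDiamondBarH_of_diamond stmtDiamondH L M H hL hML c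
  rw [es1Diamond_eq hδ]
  exact muRelH_diamondJ hL hML hσL hσM hc hδ h

end Fermat.Agent.ES1
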