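/-
ES₁ / G1-S (MuSurjH), analytic half (helper83; fork of ES/MuSurjAn.lean for a generic `Γ`).

For a parabolic homomorphism `φ : Γ → ℤ` and `n > 0`, the character `χ = e(φ / n)` is the
multiplier of the holomorphic function `hChiG χ` on `ℍ`, and `U := hChiG χ ^ n` is a modular
function for `Γ` all of whose orders (at all places of `F = Frac (modFunAlgG Γ)` over `ℂ`) are
divisible by `n`.
-/
import Fermat.Agent.ES1.EisCharPlaceG
import Fermat.Agent.ES.MuSurjAn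

set_option autoImplicit false

open UpperHalfPlane CongruenceSubgroup Matrix
open scoped MatrixGroups Manifold

noncomputable section

namespace Fermat.Agent.ES1

open Fermat.Agent.ES Fermat.Agent.S24 Fermat.Agent.S28 Fermat.Agent.ES.RC AlgebraicCurve
  ModularCurve.Period

variable {Γ : Subgroup SL(2, ℤ)}

/-- the character `e(φ/n) : γ ↦ exp(2πi φ(γ)/n)` of `Γ`, additively -/
def es1g1sExpChar (n : ℕ) (φ : Additive Γ →+ ℤ) : Additive Γ →+ Additive ℂˣ :=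
  (expHom n).comp φ

theorem es1g1sExpChar_apply (n : ℕ) (φ : Additive Γ →+ ℤ) (γ : Additive Γ) :
    es1g1sExpChar n φ γ = expHom n (φ γ) := rfl

/-- the multiplicative form of `es1g1sExpChar n φ` -/
def es1g1sExpCharMul (n : ℕ) (φ : Additive Γ →+ ℤ) : Γ →* ℂˣ :=
  MonoidHom.toAdditive.symm (es1g1sExpChar n φ)

lemma es1g1sExpCharMul_apply (n : ℕ) (φ : Additive Γ →+ ℤ) (γ : Γ) :
    es1g1sExpCharMul n φ γ = zetaUnit n ^ (φ (Additive.ofMul γ)) := by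
  show Additive.toMul (es1g1sExpChar n φ (Additive.ofMul γ)) = _
  rw [es1g1sExpChar_apply, expHom_apply]
  rfl

lemma es1g1s_toAdditive_expCharMul (n : ℕ) (φ : Additive Γ →+ ℤ) :
    MonoidHom.toAdditive (es1g1sExpCharMul n φ) = es1g1sExpChar n φ :=
  MonoidHom.toAdditive.apply_symm_apply _

lemma es1g1sExpCharMul_pow {n : ℕ} (hn : n ≠ 0) (φ : Additive Γ →+ ℤ) (γ : Γ) :
    es1g1sExpCharMul n φ γ ^ n = 1 := by
  rw [es1g1sExpCharMul_apply, ← zpow_natCast, ← _root_.zpow_mul, mul_comm, _root_.zpow_mul,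
    zpow_natCast, (zetaUnit_isPrimitiveRoot hn).pow_eq_one, _root_.one_zpow]

lemma es1g1sExpCharMul_of_eq_zero (n : ℕ) (φ : Additive Γ →+ ℤ) {γ : Γ}
    (h : φ (Additive.ofMul γ) = 0) : es1g1sExpCharMul n φ γ = 1 := by
  rw [es1g1sExpCharMul_apply, h, zpow_zero]

lemma es1g1sExpCharMul_par (n : ℕ) {φ : Additive Γ →+ ℤ}
    (hφ : IsParabolicHom Γ φ) (γ : Γ) (hγ : IsPar γ) :
    es1g1sExpCharMul n φ γ = 1 :=
  es1g1sExpCharMul_of_eq_zero n φ (hφ γ hγ)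

/-- an integral homomorphism kills the elements with a fixed point (they have finite order). -/
lemma es1g1s_hom_int_of_fixed (φ : Additive Γ →+ ℤ) (γ : Γ) (τ : ℍ)
    (hfix : (γ : SL(2, ℤ)) • τ = τ) : φ (Additive.ofMul γ) = 0 := by
  have h12 : γ ^ 12 = 1 := by
    apply Subtype.ext
    rw [Subgroup.coe_pow, Subgroup.coe_one]
    exact pow_twelve_eq_one_of_fixed _ τ hfix
  have h1 : (12 : ℕ) • φ (Additive.ofMul γ) = 0 := by
    rw [← map_nsmul, ← ofMul_pow, h12]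
    exact map_zero φ
  simpa using h1

lemma es1g1sExpCharMul_ell (n : ℕ) (φ : Additive Γ →+ ℤ) (γ : Γ) (τ : ℍ)
    (hfix : (γ : SL(2, ℤ)) • τ = τ) : es1g1sExpCharMul n φ γ = 1 :=
  es1g1sExpCharMul_of_eq_zero n φ (es1g1s_hom_int_of_fixed φ γ τ hfix)

variable [Γ.FiniteIndex] [IsEisLevel Γ]

/-- **G1-S, analytic half.**  For `φ` parabolic and `n > 0` there are a nonzero modular function
`U` for `Γ` and a root datum `R = (hChiG χ, 1)` with `R.a ^ n = U`, multiplier `e(φ/n)`, and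
`n ∣ v.ord U` at every place `v` of `F = Frac (modFunAlgG Γ)` over `ℂ`. -/
theorem es1g1s_an (F : Type) [Field F] [Algebra ℂ F] [Algebra (modFunAlgG Γ) F]
    [IsFractionRing (modFunAlgG Γ) F]
    (hAll : StmtAllG Γ F) (hPt : StmtPtExactG Γ F) (hCusp : StmtCuspExactG Γ F)
    (φ : Additive Γ →+ ℤ) (hφ : IsParabolicHom Γ φ) (n : ℕ) (hn : 0 < n) :
    ∃ (U : modFunAlgG Γ) (R : RootData Γ n), U ≠ 0 ∧
      (∀ τ : ℍ, R.a τ ^ n = (U : ℍ → ℂ) τ) ∧ (∀ τ : ℍ, R.g τ = 1) ∧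
      R.multAdd = es1g1sExpChar n φ ∧
      ∀ v : Place ℂ F, (n : ℤ) ∣ v.ord (algebraMap (modFunAlgG Γ) F U) := by
  have hn0 : n ≠ 0 := hn.ne'
  set χ : Γ →* ℂˣ := es1g1sExpCharMul n φ with hχdef
  have hχp : ∀ γ : Γ, χ γ ^ n = 1 := es1g1sExpCharMul_pow hn0 φ
  have hpar : ∀ γ : Γ, IsPar γ → χ γ = 1 := es1g1sExpCharMul_par n hφ
  have hell : ∀ (γ : Γ) (τ : ℍ), (γ : SL(2, ℤ)) • τ = τ → χ γ = 1 := es1g1sExpCharMul_ell n φ
  refine ⟨uChiG χ hn0 hχp hpar, hChiRootDataG χ hn0 hχp hpar, uChi_ne_zeroG χ hn0 hχp hpar,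
    fun τ => rfl, fun τ => rfl, ?_, fun v => uChi_dvd_ordG χ F hAll hPt hCusp hn0 hχp hpar hell v⟩
  show MonoidHom.toAdditive (hChiRootDataG χ hn0 hχp hpar).mult = es1g1sExpChar n φ
  rw [hChiRootData_multG, hχdef, es1g1s_toAdditive_expCharMul]

end Fermat.Agent.ES1
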