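import Fermat.Agent.ES.MuSurjDescent
import Fermat.Agent.ES1.RCGamma
import Fermat.Agent.ES1.RealFinal
import Fermat.Agent.ES1.PerInj

/-!
# ES₁ / G1-S (MuSurjH), descent half (helper83; fork of ES/MuSurjDescent.lean)

`K_ℂ = fieldC ℂ L M H ⊂ ℂ((q))`, `Γ = gammaH L M H`, `M ∣ L`,
`es1g1sUC L M H n = {u ∈ K_ℂ^× : n ∣ w.ord u for every place w of K_ℂ / ℂ}`.

* `es1g1sUC_coeffMap`     : stable under the coefficientwise action of `Aut ℂ`;
* `es1g1sUC_mul_pow`      : and under multiplication by `n`-th powers of `K_ℂ^×`;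
* `es1g1sUC_exists_root`  : every element is an `n`-th power in `ℂ((q))` (the cusp `∞` is a place);
* `es1g1sUC_finite`       : `U_ℂ(n) / K_ℂ^{×n}` is finite (multiplier characters; `Γ` is finitely
                            generated);
* `es1g1sUC_exists_algebraic` : every class of `U_ℂ(n) / K_ℂ^{×n}` contains `w ^ n` with `w` of
                            algebraic coefficients (A6-surj).
-/

set_option autoImplicit false
set_option linter.unusedSectionVars false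
set_option linter.unusedVariables false
set_option linter.style.haveILetI false

noncomputable section

namespace Fermat.Agent.ES1

open ModularCurve AlgebraicCurve CongruenceSubgroup UpperHalfPlane IntermediateField
open Fermat.Agent.S24 Fermat.Agent.S28 Fermat.Agent.ES Fermat.Agent.ES.RRFin Fermat.Agent.ES.RC
open scoped MatrixGroups Manifold

/-- from finiteness over `k(x)` inside `K` to the relative degree in the ambient field -/
theorem es1g1s_relfinrank_ne_zero {k E : Type*} [Field k] [Field E] [Algebra k E]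
    (K : IntermediateField k E) (x : K) [FiniteDimensional k⟮x⟯ K] :
    (IntermediateField.adjoin k {(x : E)}).relfinrank K ≠ 0 := by
  have h1 : (IntermediateField.adjoin k {(x : E)}).comap K.val = k⟮x⟯ := by
    have h2 : IntermediateField.adjoin k {(x : E)} = (k⟮x⟯).map K.val := by
      rw [IntermediateField.adjoin_map, Set.image_singleton]
      rfl
    rw [h2]
    ext y
    constructor
    · intro hy
      obtain ⟨z, hz, hzy⟩ := hy
      have : z = y := K.val.injective hzy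
      rwa [this] at hz
    · intro hy
      exact ⟨y, hy, rfl⟩
  have h3 := IntermediateField.finrank_comap (A := IntermediateField.adjoin k {(x : E)}) K.val
  rw [IntermediateField.fieldRange_val, h1] at h3
  rw [← h3]
  exact (Module.finrank_pos (R := k⟮x⟯) (M := K)).ne'

variable (L M : ℕ) [NeZero L] (H : Subgroup (ZMod M)ˣ)

/-! ## (a) `Aut ℂ` acts on `K_ℂ` by semilinear automorphisms -/

/-- the coefficientwise action of `σ ∈ Aut ℂ` on `K_ℂ`, as a ring automorphism. -/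
def es1g1sSigmaRingAut (σ : ℂ ≃+* ℂ) : fieldC ℂ L M H ≃+* fieldC ℂ L M H where
  toFun x := ⟨coeffMap (σ : ℂ →+* ℂ) (x : LaurentSeries ℂ),
    es1f_coeffMap_mem_fieldC (σ : ℂ →+* ℂ) L M H x.2⟩
  invFun x := ⟨coeffMap (σ.symm : ℂ →+* ℂ) (x : LaurentSeries ℂ),
    es1f_coeffMap_mem_fieldC (σ.symm : ℂ →+* ℂ) L M H x.2⟩
  left_inv x := Subtype.ext (coeffMap_symm_coeffMap σ _)
  right_inv x := Subtype.ext (coeffMap_coeffMap_symm σ _)
  map_mul' x y :=
    Subtype.ext (map_mul (coeffMap (σ : ℂ →+* ℂ)) (x : LaurentSeries ℂ) (y : LaurentSeries ℂ))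
  map_add' x y :=
    Subtype.ext (map_add (coeffMap (σ : ℂ →+* ℂ)) (x : LaurentSeries ℂ) (y : LaurentSeries ℂ))

/-- the coefficientwise action of `σ ∈ Aut ℂ` on `K_ℂ`, as a semilinear automorphism. -/
def es1g1sSigmaAut (σ : ℂ ≃+* ℂ) : SemilinearAut ℂ (fieldC ℂ L M H) :=
  ⟨(es1g1sSigmaRingAut L M H σ, σ), fun a => Subtype.ext (coeffMap_algebraMap (σ : ℂ →+* ℂ) a)⟩

theorem es1g1s_coe_sigmaAut_smul (σ : ℂ ≃+* ℂ) (x : fieldC ℂ L M H) :
    ((es1g1sSigmaAut L M H σ • x : fieldC ℂ L M H) : LaurentSeries ℂ) =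
      coeffMap (σ : ℂ →+* ℂ) (x : LaurentSeries ℂ) :=
  rfl

/-! ## The group `U_ℂ(n)` -/

/-- `U_ℂ(n)`: nonzero elements of `K_ℂ` all of whose orders are divisible by `n`. -/
def es1g1sUC (n : ℕ) : Set (LaurentSeries ℂ) :=
  {u | ∃ hu : u ∈ fieldC ℂ L M H, u ≠ 0 ∧
    ∀ w : Place ℂ (fieldC ℂ L M H), (n : ℤ) ∣ w.ord ⟨u, hu⟩}

variable {L M H}

theorem es1g1sUC_mem {n : ℕ} {u : LaurentSeries ℂ} (h : u ∈ es1g1sUC L M H n) :
    u ∈ fieldC ℂ L M H := h.1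

theorem es1g1sUC_ne_zero {n : ℕ} {u : LaurentSeries ℂ} (h : u ∈ es1g1sUC L M H n) : u ≠ 0 :=
  h.2.1

theorem es1g1sUC_coeffMap {n : ℕ} (σ : ℂ ≃+* ℂ) {u : LaurentSeries ℂ}
    (h : u ∈ es1g1sUC L M H n) : coeffMap (σ : ℂ →+* ℂ) u ∈ es1g1sUC L M H n := by
  obtain ⟨hu, hu0, hord⟩ := h
  refine ⟨es1f_coeffMap_mem_fieldC (σ : ℂ →+* ℂ) L M H hu, ?_, fun w => ?_⟩
  · intro h0
    apply hu0
    have := congrArg (coeffMap (σ.symm : ℂ →+* ℂ)) h0
    rwa [coeffMap_symm_coeffMap, map_zero] at this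
  · have h1 := SemilinearAut.ord_smul (es1g1sSigmaAut L M H σ)
      ((es1g1sSigmaAut L M H σ)⁻¹ • w) ⟨u, hu⟩
    rw [smul_inv_smul] at h1
    have h2 : (es1g1sSigmaAut L M H σ • (⟨u, hu⟩ : fieldC ℂ L M H) : fieldC ℂ L M H) =
        ⟨coeffMap (σ : ℂ →+* ℂ) u, es1f_coeffMap_mem_fieldC (σ : ℂ →+* ℂ) L M H hu⟩ := rfl
    rw [h2] at h1
    rw [h1]
    exact hord _

theorem es1g1sUC_mul_pow {n : ℕ} {u c : LaurentSeries ℂ} (h : u ∈ es1g1sUC L M H n)
    (hc : c ∈ fieldC ℂ L M H) (hc0 : c ≠ 0) : u * c ^ n ∈ es1g1sUC L M H n := by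
  obtain ⟨hu, hu0, hord⟩ := h
  refine ⟨mul_mem hu (pow_mem hc n), mul_ne_zero hu0 (pow_ne_zero n hc0), fun w => ?_⟩
  have hu0' : (⟨u, hu⟩ : fieldC ℂ L M H) ≠ 0 := fun h => hu0 (congrArg Subtype.val h)
  have hc0' : (⟨c, hc⟩ : fieldC ℂ L M H) ≠ 0 := fun h => hc0 (congrArg Subtype.val h)
  have e : (⟨u * c ^ n, mul_mem hu (pow_mem hc n)⟩ : fieldC ℂ L M H) = ⟨u, hu⟩ * ⟨c, hc⟩ ^ n :=
    rfl
  rw [e, Place.ord_mul w hu0' (pow_ne_zero n hc0'), ← zpow_natCast, Place.ord_zpow]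
  exact dvd_add (hord w) (Dvd.intro _ rfl)

/-! ## (b) the cusp `∞` is a place; `n`-th roots in `ℂ((q))` -/

variable (L M H) in
/-- the `q`-adic valuation on `K_ℂ`. -/
def es1g1sValInf : Valuation (fieldC ℂ L M H) (WithZero (Multiplicative ℤ)) :=
  (Valued.v : Valuation (LaurentSeries ℂ) (WithZero (Multiplicative ℤ))).comap
    (algebraMap (fieldC ℂ L M H) (LaurentSeries ℂ))

theorem es1g1sValInf_apply (f : fieldC ℂ L M H) :
    es1g1sValInf L M H f = Valued.v (f : LaurentSeries ℂ) := rfl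

variable (L M H) in
/-- **The cusp `∞` is a place of `K_ℂ`**, with order function the `q`-order. -/
theorem es1g1s_exists_place_inf :
    ∃ w : Place ℂ (fieldC ℂ L M H), ∀ f : fieldC ℂ L M H, f ≠ 0 →
      w.ord f = (f : LaurentSeries ℂ).order := by
  have hK : ∀ a : ℂ, es1g1sValInf L M H (algebraMap ℂ (fieldC ℂ L M H) a) ≤ 1 := by
    intro a
    by_cases ha : a = 0
    · simp [ha]
    · exact (val_algebraMap_eq_one a ha).le
  have hj : jqModC ℂ ∈ fieldC ℂ L M H := jqModC_mem_fieldC L M H ℂ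
  have hj0 : (⟨jqModC ℂ, hj⟩ : fieldC ℂ L M H) ≠ 0 := by
    intro h
    have h1 := congrArg Subtype.val h
    have h2 := one_lt_val_jqModC
    simp only at h1
    rw [h1] at h2
    simp at h2
  have hx : ∃ x : fieldC ℂ L M H, x ≠ 0 ∧ es1g1sValInf L M H x < 1 := by
    refine ⟨(⟨jqModC ℂ, hj⟩ : fieldC ℂ L M H)⁻¹, inv_ne_zero hj0, ?_⟩
    rw [map_inv₀, es1g1sValInf_apply]
    exact inv_lt_one_of_one_lt₀ one_lt_val_jqModC
  obtain ⟨w, e₀, he₀, -, hw⟩ := exists_place_of_valuation (K := ℂ) (es1g1sValInf L M H) hK hx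
  have hvord : ∀ f : fieldC ℂ L M H, f ≠ 0 →
      vord (es1g1sValInf L M H) f = (f : LaurentSeries ℂ).order := by
    intro f hf
    have hf' : (f : LaurentSeries ℂ) ≠ 0 := fun h => hf (Subtype.ext h)
    rw [vord, es1g1sValInf_apply, Fermat.Agent.ES.Sur.val_eq_exp_neg_order hf',
      WithZero.log_exp, neg_neg]
  have he1 : e₀ = 1 := by
    have h1 := hw _ hj0
    rw [hvord _ hj0] at h1
    simp only at h1
    rw [Fermat.Agent.ES.Sur.order_jqModC] at h1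
    have hdvd : e₀ ∣ 1 := ⟨-w.ord ⟨jqModC ℂ, hj⟩, by linarith⟩
    exact Int.eq_one_of_dvd_one he₀.le hdvd
  refine ⟨w, fun f hf => ?_⟩
  have h1 := hw f hf
  rw [hvord f hf, he1, one_mul] at h1
  exact h1.symm

theorem es1g1sUC_exists_root {n : ℕ} (hn : 0 < n) {u : LaurentSeries ℂ}
    (h : u ∈ es1g1sUC L M H n) : ∃ w : LaurentSeries ℂ, w ^ n = u := by
  obtain ⟨hu, hu0, hord⟩ := h
  obtain ⟨w, hw⟩ := es1g1s_exists_place_inf L M H
  have h1 := hord w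
  rw [hw ⟨u, hu⟩ (fun h => hu0 (congrArg Subtype.val h))] at h1
  exact Fermat.Agent.ES.LaurentRoot.exists_pow_eq_laurentSeries hn u hu0 h1

/-! ## (c) finiteness of `U_ℂ(n) / K_ℂ^{×n}` -/

variable (L M H) in
/-- analytic root data of an element `u` of `K_ℂ`: `u = a / g`, `(D.a / g) ^ n = a / g`. -/
structure Es1g1sAnData (n : ℕ) (u : LaurentSeries ℂ) where
  /-- numerator -/
  a : ℍ → ℂ
  /-- denominator -/
  g : ℍ → ℂ
  /-- the root -/
  D : RootData (gammaH L M H) n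
  ha : IsModFunG (gammaH L M H) a
  hg : IsModFunG (gammaH L M H) g
  hLa : laurentOf a ≠ 0
  hLg : laurentOf g ≠ 0
  hfrac : u * laurentOf g = laurentOf a
  hDg : D.g = g
  hDa : ∀ τ, D.a τ ^ n = a τ * g τ ^ (n - 1)

theorem es1g1sUC_exists_anData (hML : M ∣ L) {n : ℕ} (hn : 0 < n) {u : LaurentSeries ℂ}
    (h : u ∈ es1g1sUC L M H n) : Nonempty (Es1g1sAnData L M H n u) := by
  obtain ⟨hu, hu0, hord⟩ := h
  obtain ⟨a, g, ha, hg, hLg, hfrac⟩ := es1rc_exists_frac H hu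
  have hLa : laurentOf a ≠ 0 := by
    rw [← hfrac]
    exact mul_ne_zero hu0 hLg
  have ha0 : a ≠ 0 := fun h => hLa (by rw [h]; exact laurentOf_zero)
  have hg0 : g ≠ 0 := fun h => hLg (by rw [h]; exact laurentOf_zero)
  letI := es1rcAlgebra hML H
  haveI := es1rc_isScalarTower hML H
  haveI := es1rc_isFractionRing hML H
  have hPt := es1rc_stmtPtG hML H
  have hord' : ∀ τ : ℍ, ∃ k : ℤ,
      ((ordAt τ a).toNat : ℤ) - ((ordAt τ g).toNat : ℤ) = n * k := by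
    intro τ
    obtain ⟨v, e, -, hv⟩ := hPt τ
    have ha' : (⟨a, ha⟩ : modFunAlgG (gammaH L M H)) ≠ 0 := fun h => ha0 (congrArg Subtype.val h)
    have hg' : (⟨g, hg⟩ : modFunAlgG (gammaH L M H)) ≠ 0 := fun h => hg0 (congrArg Subtype.val h)
    have h1 := hv ⟨a, ha⟩ ha'
    have h2 := hv ⟨g, hg⟩ hg'
    have hA0 : algebraMap (modFunAlgG (gammaH L M H)) (fieldC ℂ L M H) ⟨a, ha⟩ ≠ 0 :=
      fun h => hLa (congrArg Subtype.val h)
    have hG0 : algebraMap (modFunAlgG (gammaH L M H)) (fieldC ℂ L M H) ⟨g, hg⟩ ≠ 0 :=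
      fun h => hLg (congrArg Subtype.val h)
    have hu0' : (⟨u, hu⟩ : fieldC ℂ L M H) ≠ 0 := fun h => hu0 (congrArg Subtype.val h)
    have hmul : (⟨u, hu⟩ : fieldC ℂ L M H) *
        algebraMap (modFunAlgG (gammaH L M H)) (fieldC ℂ L M H) ⟨g, hg⟩ =
        algebraMap (modFunAlgG (gammaH L M H)) (fieldC ℂ L M H) ⟨a, ha⟩ := Subtype.ext hfrac
    have h3 := Place.ord_mul v hu0' hG0
    rw [hmul] at h3
    obtain ⟨k, hk⟩ := hord v
    refine ⟨e * k, ?_⟩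
    simp only [Fermat.Agent.ES.RC.ordPt] at h1 h2
    rw [h1, h2, h3, hk]
    ring
  have hinv : ∀ γ ∈ gammaH L M H, ∀ τ : ℍ, a (γ • τ) * g τ = a τ * g (γ • τ) := by
    intro γ hγ τ
    rw [ha.comp_smul hγ τ, hg.comp_smul hγ τ]
  obtain ⟨D, hDg, hDa⟩ := RootData.exists_ofDiv (Γ := gammaH L M H) hn.ne'
    ha.mdiff hg.mdiff ha0 hg0 hord' hinv
  exact ⟨⟨a, g, D, ha, hg, hLa, hLg, hfrac, hDg, hDa⟩⟩

theorem Es1g1sAnData.a_smul {n : ℕ} {u : LaurentSeries ℂ} (A : Es1g1sAnData L M H n u)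
    (γ : gammaH L M H) (τ : ℍ) :
    A.D.a ((γ : SL(2, ℤ)) • τ) = ((A.D.mult γ : ℂˣ) : ℂ) * A.D.a τ := by
  have hg : MDiff A.g := A.hg.mdiff
  have hg0 : A.g ≠ 0 := fun h => A.hLg (by rw [h]; exact laurentOf_zero)
  have hconst : MDiff (fun _ : ℍ => ((A.D.mult γ : ℂˣ) : ℂ)) := mdifferentiable_const
  refine mdiff_mul_right_cancel (mdiff_comp_SL A.D.mdiff_a γ) (hconst.mul A.D.mdiff_a) hg hg0
    (fun τ => ?_) τ
  have h := A.D.mult_spec γ τ
  rw [A.hDg, A.hg.comp_smul γ.2 τ] at h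
  rw [h]
  simp only [Pi.mul_apply]
  ring

/-- **Kernel of the multiplier map over `ℂ`**: two elements of `K_ℂ` whose roots have the same
multiplier character differ by an `n`-th power of `K_ℂ^×`. -/
theorem Es1g1sAnData.exists_eq_mul_pow (hML : M ∣ L) {n : ℕ} (hn : 0 < n)
    {u t : LaurentSeries ℂ} (A : Es1g1sAnData L M H n u)
    (B : Es1g1sAnData L M H n t) (h : A.D.mult = B.D.mult) :
    ∃ c ∈ fieldC ℂ L M H, c ≠ 0 ∧ u = t * c ^ n := by
  haveI : NeZero M := es1rc_neZero_of_dvd hML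
  haveI : (gammaH L M H).FiniteIndex := es1rc_finiteIndex hML H
  obtain ⟨m, rfl⟩ : ∃ m, n = m + 1 := ⟨n - 1, by omega⟩
  -- the numerator `N = D_A.a · D_B.a^m · g_B`
  set Nf : ℍ → ℂ := fun τ => A.D.a τ * B.D.a τ ^ m * B.g τ with hNf
  have hBg : MDiff B.g := B.hg.mdiff
  have hNmd : MDiff Nf := (A.D.mdiff_a.mul (B.D.mdiff_a.pow m)).mul hBg
  have hNinv : ∀ γ ∈ gammaH L M H, ∀ τ : ℍ, Nf (γ • τ) = Nf τ := by
    intro γ hγ τ
    have h1 := A.a_smul ⟨γ, hγ⟩ τ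
    have h2 := B.a_smul ⟨γ, hγ⟩ τ
    have h3 : ((B.D.mult ⟨γ, hγ⟩ : ℂˣ) : ℂ) ^ (m + 1) = 1 := by
      rw [RootData.coe_mult]
      exact B.D.multVal_pow ⟨γ, hγ⟩
    simp only [hNf]
    simp only at h1 h2
    rw [h1, h2, B.hg.comp_smul hγ τ, h]
    calc ((B.D.mult ⟨γ, hγ⟩ : ℂˣ) : ℂ) * A.D.a τ * (((B.D.mult ⟨γ, hγ⟩ : ℂˣ) : ℂ) * B.D.a τ) ^ m
          * B.g τ
        = ((B.D.mult ⟨γ, hγ⟩ : ℂˣ) : ℂ) ^ (m + 1) * (A.D.a τ * B.D.a τ ^ m * B.g τ) := by ring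
      _ = A.D.a τ * B.D.a τ ^ m * B.g τ := by rw [h3, one_mul]
  have hNpow : (fun z => Nf z ^ (m + 1)) =
      A.a * A.g ^ m * (B.a * B.g ^ m) ^ m * B.g ^ (m + 1) := by
    funext z
    have h1 : A.D.a z ^ (m + 1) = A.a z * A.g z ^ m := A.hDa z
    have h2 : B.D.a z ^ (m + 1) = B.a z * B.g z ^ m := B.hDa z
    simp only [hNf, Pi.mul_apply, Pi.pow_apply]
    rw [mul_pow, mul_pow, h1, ← pow_mul, mul_comm m (m + 1), pow_mul, h2]
  have hNmod : IsModFunG (gammaH L M H) Nf := by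
    refine isModFunG_of_pow (Nat.succ_ne_zero m) hNmd hNinv ?_
    rw [hNpow]
    exact (((A.ha.mul (A.hg.pow m)).mul ((B.ha.mul (B.hg.pow m)).pow m)).mul (B.hg.pow (m + 1)))
  -- Laurent expansions
  have mer : ∀ {f : ℍ → ℂ}, IsModFunG (gammaH L M H) f → IsMerInf f := fun hf =>
    es1rc_isMerInf H hf
  have mA := mer A.ha
  have mAg := mer A.hg
  have mB := mer B.ha
  have mBg := mer B.hg
  have hLN : laurentOf Nf ^ (m + 1) =
      laurentOf A.a * laurentOf A.g ^ m * (laurentOf B.a * laurentOf B.g ^ m) ^ m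
        * laurentOf B.g ^ (m + 1) := by
    rw [← laurentOf_pow (mer hNmod)]
    have e : Nf ^ (m + 1) = fun z => Nf z ^ (m + 1) := rfl
    rw [e, hNpow,
      laurentOf_mul (mer (((A.ha.mul (A.hg.pow m)).mul ((B.ha.mul (B.hg.pow m)).pow m))))
        (mer (B.hg.pow (m + 1))),
      laurentOf_mul (mer (A.ha.mul (A.hg.pow m))) (mer ((B.ha.mul (B.hg.pow m)).pow m)),
      laurentOf_mul mA (mer (A.hg.pow m)), laurentOf_pow mAg,
      laurentOf_pow (mer (B.ha.mul (B.hg.pow m))), laurentOf_mul mB (mer (B.hg.pow m)),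
      laurentOf_pow mBg, laurentOf_pow mBg]
  set LA := laurentOf A.a
  set LAg := laurentOf A.g
  set LB := laurentOf B.a
  set LBg := laurentOf B.g
  have hLA : LA ≠ 0 := A.hLa
  have hLAg : LAg ≠ 0 := A.hLg
  have hLB : LB ≠ 0 := B.hLa
  have hLBg : LBg ≠ 0 := B.hLg
  have hden : LB * LBg ^ m * LAg ≠ 0 := mul_ne_zero (mul_ne_zero hLB (pow_ne_zero m hLBg)) hLAg
  have hLN0 : laurentOf Nf ≠ 0 := by
    intro h0
    rw [h0, zero_pow (Nat.succ_ne_zero m)] at hLN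
    exact (mul_ne_zero (mul_ne_zero (mul_ne_zero hLA (pow_ne_zero m hLAg))
      (pow_ne_zero m (mul_ne_zero hLB (pow_ne_zero m hLBg)))) (pow_ne_zero _ hLBg)) hLN.symm
  refine ⟨laurentOf Nf / (LB * LBg ^ m * LAg), ?_, div_ne_zero hLN0 hden, ?_⟩
  · refine div_mem (es1rc_laurentOf_mem_fieldC hML H hNmod)
      (mul_mem (mul_mem (es1rc_laurentOf_mem_fieldC hML H B.ha)
        (pow_mem (es1rc_laurentOf_mem_fieldC hML H B.hg) m))
        (es1rc_laurentOf_mem_fieldC hML H A.hg))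
  · have hu : u = LA / LAg := by rw [eq_div_iff hLAg]; exact A.hfrac
    have ht : t = LB / LBg := by rw [eq_div_iff hLBg]; exact B.hfrac
    rw [hu, ht, div_pow, hLN]
    field_simp
    ring

/-- **Finiteness of `U_ℂ(n) / K_ℂ^{×n}`.** -/
theorem es1g1sUC_finite (hML : M ∣ L) {n : ℕ} (hn : 0 < n) :
    ∃ T : Set (LaurentSeries ℂ), T.Finite ∧ T ⊆ es1g1sUC L M H n ∧
      ∀ u ∈ es1g1sUC L M H n, ∃ t ∈ T, ∃ c ∈ fieldC ℂ L M H, c ≠ 0 ∧ u = t * c ^ n := by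
  classical
  haveI : NeZero M := es1rc_neZero_of_dvd hML
  haveI : (gammaH L M H).FiniteIndex := es1rc_finiteIndex hML H
  haveI : NeZero n := ⟨hn.ne'⟩
  haveI : Group.FG (gammaH L M H) := es1per_fg (gammaH L M H)
  haveI : Finite (gammaH L M H →* rootsOfUnity n ℂ) :=
    Fermat.Agent.ES.Sur.finite_monoidHom_of_fg _ _
  -- the choice of analytic data and the multiplier map
  let A : ∀ u : es1g1sUC L M H n, Es1g1sAnData L M H n u :=
    fun u => (es1g1sUC_exists_anData hML hn u.2).some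
  let μ : es1g1sUC L M H n → (gammaH L M H →* rootsOfUnity n ℂ) := fun u => (A u).D.multRoots
  have hex : ∀ χ : Set.range μ, ∃ u : es1g1sUC L M H n, μ u = χ := fun χ => χ.2
  choose rep hrep using hex
  refine ⟨Set.range (fun χ : Set.range μ => ((rep χ : es1g1sUC L M H n) : LaurentSeries ℂ)),
    Set.finite_range _, ?_, ?_⟩
  · rintro _ ⟨χ, rfl⟩
    exact (rep χ).2
  · intro u hu
    set χ : Set.range μ := ⟨μ ⟨u, hu⟩, ⟨⟨u, hu⟩, rfl⟩⟩ with hχ
    refine ⟨_, ⟨χ, rfl⟩, ?_⟩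
    have hμ : μ (rep χ) = μ ⟨u, hu⟩ := hrep χ
    have hmult : (A ⟨u, hu⟩).D.mult = (A (rep χ)).D.mult := by
      ext1 γ
      have h1 := congrArg (fun f : gammaH L M H →* rootsOfUnity n ℂ =>
        ((f γ : rootsOfUnity n ℂ) : ℂˣ)) hμ
      exact h1.symm
    exact Es1g1sAnData.exists_eq_mul_pow hML hn (A ⟨u, hu⟩) (A (rep χ)) hmult

/-! ## (d) descent -/

/-- `K_ℂ` is finite over `ℂ(j)` -/
theorem es1g1s_relfinrank_fieldC_ne_zero (hML : M ∣ L) :
    (IntermediateField.adjoin ℂ {jqModC ℂ}).relfinrank (fieldC ℂ L M H) ≠ 0 := by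
  haveI : FiniteDimensional ℂ⟮jFC L M H⟯ (fieldC ℂ L M H) := (stmtRamJC L M H hML).finite
  exact es1g1s_relfinrank_ne_zero (fieldC ℂ L M H) (jFC L M H)

/-- **A6-surj for `K_ℂ`**: every class of `U_ℂ(n) / K_ℂ^{×n}` contains `w ^ n` with `w` a Laurent
series with algebraic coefficients. -/
theorem es1g1sUC_exists_algebraic (hML : M ∣ L) {n : ℕ} (hn : 0 < n) {u : LaurentSeries ℂ}
    (hu : u ∈ es1g1sUC L M H n) :
    ∃ c ∈ fieldC ℂ L M H, c ≠ 0 ∧ ∃ w : LaurentSeries ℂ, w ^ n = u * c ^ n ∧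
      ∀ m : ℤ, IsAlgebraic ℚ (w.coeff m) :=
  exists_algebraic_root n hn (jqModC ℂ) one_lt_val_jqModC
    (fun σ => coeffMap_jqModC (σ : ℂ →+* ℂ)) (fieldC ℂ L M H) (jqModC_mem_fieldC L M H ℂ)
    (es1g1s_relfinrank_fieldC_ne_zero hML)
    (fun σ _ hy => es1f_coeffMap_mem_fieldC (σ : ℂ →+* ℂ) L M H hy)
    (es1g1sUC L M H n) (fun _ h => es1g1sUC_ne_zero h) (fun _ h => es1g1sUC_mem h)
    (fun σ _ h => es1g1sUC_coeffMap σ h)
    (fun _ h => es1g1sUC_exists_root hn h) (es1g1sUC_finite hML hn) u hu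

end Fermat.Agent.ES1
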