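import Fermat.Agent.ES1.G1.MuSurjH
import Fermat.Agent.ES1.RCFinal2

/-!
# ES₁ / G1-S: `MuSurjH L M H`, unconditional (helper83)

`es1g1s_muSurjH (hML : M ∣ L) : MuSurjH L M H` (`L ≠ 0`): every character `e(φ/n)`, `φ : Γ → ℤ`
parabolic, `Γ = gammaH L M H`, is the multiplier of an `n`-torsion class of `JH L M H`.
-/

set_option autoImplicit false

noncomputable section

namespace Fermat.Agent.ES1

variable {L M : ℕ} [NeZero L] {H : Subgroup (ZMod M)ˣ}

/-- **G1-S (MuSurjH)**, unconditional. -/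
theorem es1g1s_muSurjH (hML : M ∣ L) : MuSurjH L M H :=
  es1g1s_muSurjH_of_cuspExact hML (es1rc_stmtCuspExactG hML H)

end Fermat.Agent.ES1
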