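import Fermat.Agent.ES1.G1.MuSurjAnH
import Fermat.Agent.ES1.G1.MuSurjDescentH
import Fermat.Agent.ES1.HBridge
import Fermat.Agent.ES.MuSurjGlue

/-!
# ES₁ / G1-S: `MuSurjH` (helper83; fork of ES/MuSurjGlue.lean)

`Γ = gammaH L M H`, `M ∣ L`, `K_ℂ = fieldC ℂ L M H`, `K_ℚ̄ = fieldBar L M H`, `J = JH L M H`.

`es1g1s_muSurj` : for `φ : Γ → ℤ` parabolic and `n > 0` there is `x ∈ J[n]` with a Kummer function
`u ∈ K_ℚ̄` whose analytic `n`-th root has multiplier `e(φ/n)` (= `MuRelH n x e(φ/n)` written out).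
Inputs still open in RC-Γ are hypotheses: `StmtAllG`, `StmtCuspExactG` for `Γ` and `K_ℂ`.

Proof.  The analytic half (`es1g1s_an`) gives a modular function `U` with all orders divisible by
`n` and an `n`-th root of multiplier `e(φ/n)`.  By descent (`es1g1sUC_exists_algebraic`) there is
`c ∈ K_ℂ^×` such that `U c ^ n = w ^ n` with `w ∈ ℚ̄((q))`; so `u₀ = w ^ n ∈ K_ℚ̄` (`DescentInj`),
all of whose orders are divisible by `n` (BCu, `es1r_bcu_dvd`), hence `u₀` is a Kummer function of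
some `x ∈ J[n]` (KB(5)).  Analytically `u₀ = U (b/d) ^ n` with root `R.a · b / d`, of the same
multiplier.
-/

set_option autoImplicit false
set_option linter.unusedSectionVars false
set_option linter.unusedVariables false
set_option linter.style.haveILetI false

noncomputable section

namespace Fermat.Agent.ES1

open ModularCurve AlgebraicCurve CongruenceSubgroup UpperHalfPlane IntermediateField
open Fermat.Agent.S24 Fermat.Agent.S28 Fermat.Agent.ES Fermat.Agent.ES.RRFin Fermat.Agent.ES.RC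
  ModularCurve.Period
open scoped MatrixGroups Manifold

attribute [local instance] algKbC

/-- the field over `ℂ` is the base change of the field over `ℚ` -/
theorem es1g1s_laurentBaseChange_C (L M : ℕ) (H : Subgroup (ZMod M)ˣ) :
    laurentBaseChange ℂ (fieldQ L M H) = fieldC ℂ L M H := by
  apply le_antisymm
  · rw [laurentBaseChange, IntermediateField.adjoin_le_iff]
    rintro _ ⟨x, hx, rfl⟩
    exact es1f_coeffMap_mem_fieldC (algebraMap ℚ ℂ) L M H hx
  · rw [fieldC, IntermediateField.adjoin_le_iff]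
    rintro _ (⟨d, hd, hdN, rfl⟩ | ⟨e, he, a, heL, rfl⟩)
    · have h1 : qExpand ℂ d (jqModC ℂ) = coeffEmb ℂ (qExpand ℚ d (jqModC ℚ)) :=
        (coeffMap_jqNModC (algebraMap ℚ ℂ) d).symm
      rw [h1]
      exact coeffEmb_mem_laurentBaseChange _ (jd_mem_fieldC ℚ L M H hdN)
    · have h1 : qExpand ℂ e (sS ℂ M H a) = coeffEmb ℂ (qExpand ℚ e (sS ℚ M H a)) :=
        (es1f_coeffMap_qExpand_sS (algebraMap ℚ ℂ) M H a e).symm
      rw [h1]
      exact coeffEmb_mem_laurentBaseChange _ (qExpand_sS_mem ℚ L M H heL a)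

variable {L M : ℕ} [NeZero L] {H : Subgroup (ZMod M)ˣ}

/-- an invariant root datum `b / d` (`b`, `d` modular functions for `Γ`). -/
def es1g1sInvRootData {Γ : Subgroup SL(2, ℤ)} (n : ℕ) (hn : n ≠ 0) {b d : ℍ → ℂ}
    (hb : IsModFunG Γ b) (hd : IsModFunG Γ d) (hb0 : b ≠ 0) (hd0 : d ≠ 0) : RootData Γ n where
  a := b
  g := d
  p_ne_zero := hn
  mdiff_a := hb.mdiff
  mdiff_g := hd.mdiff
  a_ne_zero := hb0
  g_ne_zero := hd0
  pow_inv γ hγ τ := by rw [hb.comp_smul hγ τ, hd.comp_smul hγ τ]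

theorem es1g1sInvRootData_mult {Γ : Subgroup SL(2, ℤ)} (n : ℕ) (hn : n ≠ 0) {b d : ℍ → ℂ}
    (hb : IsModFunG Γ b) (hd : IsModFunG Γ d) (hb0 : b ≠ 0) (hd0 : d ≠ 0) :
    (es1g1sInvRootData n hn hb hd hb0 hd0).mult = 1 := by
  rw [RootData.mult_eq_one_iff_invariant]
  intro γ hγ τ
  show b (γ • τ) * d τ = b τ * d (γ • τ)
  rw [hb.comp_smul hγ τ, hd.comp_smul hγ τ]

/-- **G1-S (MuSurjH)**, with the two open RC-Γ statements as hypotheses. -/
theorem es1g1s_muSurj (hML : M ∣ L)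
    (hAll : @StmtAllG (gammaH L M H) (fieldC ℂ L M H) _ _ (es1rcAlgebra hML H))
    (hCusp : @StmtCuspExactG (gammaH L M H) (fieldC ℂ L M H) _ _ (es1rcAlgebra hML H))
    (φ : Additive (gammaH L M H) →+ ℤ) (hφ : IsParabolicHom (gammaH L M H) φ)
    (n : ℕ) (hn : 0 < n) :
    ∃ x : JH L M H, n • x = 0 ∧
      ∃ (u : fieldBar L M H) (a g : ℍ → ℂ) (R : RootData (gammaH L M H) n),
        KummerRel n x u ∧
        (IsModFunG (gammaH L M H) a ∧ IsModFunG (gammaH L M H) g ∧ g ≠ 0 ∧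
          coeffMap embC (u : LaurentSeries Kb) * laurentOf g = laurentOf a) ∧
        (∀ τ : ℍ, R.a τ ^ n * g τ = a τ * R.g τ ^ n) ∧ R.multAdd = es1g1sExpChar n φ := by
  have hn0 : n ≠ 0 := hn.ne'
  haveI : NeZero M := es1rc_neZero_of_dvd hML
  letI := es1rcAlgebra hML H
  haveI := es1rc_isScalarTower hML H
  haveI := es1rc_isFractionRing hML H
  obtain ⟨U, R, hU0, hRa, hRg, hRmult, hUord⟩ :=
    es1g1s_an (fieldC ℂ L M H) hAll (es1rc_stmtPtExactG hML H) hCusp φ hφ n hn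
  have mer : ∀ {f : ℍ → ℂ}, IsModFunG (gammaH L M H) f → IsMerInf f := fun hf =>
    es1rc_isMerInf H hf
  -- `laurentOf U ∈ U_ℂ(n)`
  have hUmer : IsMerInf (U : ℍ → ℂ) := mer U.2
  have hUfun0 : (U : ℍ → ℂ) ≠ 0 := fun h => hU0 (Subtype.ext h)
  have hLU0 : laurentOf (U : ℍ → ℂ) ≠ 0 := fun h => hUfun0 ((laurentOf_eq_zero_iff hUmer).mp h)
  have hLU : laurentOf (U : ℍ → ℂ) ∈ es1g1sUC L M H n :=
    ⟨es1rc_laurentOf_mem_fieldC hML H U.2, hLU0, fun w => hUord w⟩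
  -- descent
  obtain ⟨c, hc, hc0, w, hw, halg⟩ := es1g1sUC_exists_algebraic hML hn hLU
  obtain ⟨w₀, hw₀⟩ := exists_coeffMap_eq_of_algebraic w halg
  have hcm : coeffMap (algebraMap Kb ℂ) (w₀ ^ n) = laurentOf (U : ℍ → ℂ) * c ^ n := by
    rw [map_pow, hw₀, hw]
  have hmemC : laurentOf (U : ℍ → ℂ) * c ^ n ∈ fieldC ℂ L M H :=
    mul_mem (es1rc_laurentOf_mem_fieldC hML H U.2) (pow_mem hc n)
  have hu₀mem : w₀ ^ n ∈ fieldBar L M H := by
    refine (Fermat.Agent.ES.DescentInj.coeffMap_mem_laurentBaseChange_iff (K := Kb) (L := ℂ)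
      (fieldQ L M H)).1 ?_
    rw [hcm, es1g1s_laurentBaseChange_C]
    exact hmemC
  set u₀ : fieldBar L M H := ⟨w₀ ^ n, hu₀mem⟩ with hu₀
  have hιu : iotaH L M H u₀ = ⟨laurentOf (U : ℍ → ℂ) * c ^ n, hmemC⟩ := Subtype.ext hcm
  have hu₀0 : u₀ ≠ 0 := by
    intro h0
    have h1 : iotaH L M H u₀ = 0 := by rw [h0, map_zero]
    rw [hιu] at h1
    exact mul_ne_zero hLU0 (pow_ne_zero n hc0) (congrArg Subtype.val h1)
  -- all orders of `u₀` are divisible by `n`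
  have hfin : Es1hFin L M H := es1hFin_of_ramJH (stmtRamJH L M H hML)
  have hdvd : ∀ v : Place Kb (fieldBar L M H), (n : ℤ) ∣ v.ord u₀ := by
    intro v
    haveI : FiniteDimensional Kb⟮jFH L M H⟯ (fieldBar L M H) := (stmtRamJH L M H hML).finite
    refine es1r_bcu_dvd L M H hML (Algebra.IsAlgebraic.of_finite _ _) (n : ℤ) u₀ (fun w' => ?_) v
    rw [hιu]
    exact (es1g1sUC_mul_pow hLU hc hc0).2.2 w'
  -- the Kummer class
  haveI := es1h_hasPrincipalDivisors hfin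
  obtain ⟨x, hx, hK⟩ := exists_kummerRel_of_dvd (K := Kb) (F := fieldBar L M H)
    hn0 hu₀0 hdvd
  -- the analytic description
  obtain ⟨b, d, hb, hd, hLd, hfrac⟩ := es1rc_exists_frac H hc
  have hLb : laurentOf b ≠ 0 := by
    rw [← hfrac]
    exact mul_ne_zero hc0 hLd
  have hb0 : b ≠ 0 := fun h => hLb (by rw [h]; exact laurentOf_zero)
  have hd0 : d ≠ 0 := fun h => hLd (by rw [h]; exact laurentOf_zero)
  have hgn : IsModFunG (gammaH L M H) (d ^ n) := hd.pow n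
  have han : IsModFunG (gammaH L M H) ((U : ℍ → ℂ) * b ^ n) := U.2.mul (hb.pow n)
  have hLgn : laurentOf (d ^ n) = laurentOf d ^ n := laurentOf_pow (mer hd) n
  have hLan : laurentOf ((U : ℍ → ℂ) * b ^ n) = laurentOf (U : ℍ → ℂ) * laurentOf b ^ n := by
    rw [laurentOf_mul hUmer (mer (hb.pow n)), laurentOf_pow (mer hb)]
  have hgn0 : d ^ n ≠ 0 := by
    intro h0
    have h1 : laurentOf (d ^ n) = 0 := by rw [h0]; exact laurentOf_zero
    rw [hLgn] at h1
    exact pow_ne_zero n hLd h1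
  refine ⟨x, hx, u₀, (U : ℍ → ℂ) * b ^ n, d ^ n,
    R.mul (es1g1sInvRootData n hn0 hb hd hb0 hd0), hK, ⟨han, hgn, hgn0, ?_⟩, fun τ => ?_, ?_⟩
  · show coeffMap embC (w₀ ^ n) * laurentOf (d ^ n) = laurentOf ((U : ℍ → ℂ) * b ^ n)
    have hcm' : coeffMap embC (w₀ ^ n) = laurentOf (U : ℍ → ℂ) * c ^ n := hcm
    rw [hcm', hLgn, hLan, ← hfrac]
    ring
  · show (R.a τ * b τ) ^ n * (d τ) ^ n = ((U : ℍ → ℂ) τ * (b τ) ^ n) * (R.g τ * d τ) ^ n
    rw [hRg τ, one_mul, mul_pow, hRa τ]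
  · rw [← hRmult]
    have h1 : (R.mul (es1g1sInvRootData n hn0 hb hd hb0 hd0)).mult = R.mult := by
      rw [RootData.mult_mul, es1g1sInvRootData_mult]
      ext1 γ
      simp
    show MonoidHom.toAdditive (R.mul (es1g1sInvRootData n hn0 hb hd hb0 hd0)).mult =
      MonoidHom.toAdditive R.mult
    rw [h1]

end Fermat.Agent.ES1
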