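import Fermat.Agent.ES1.G1.MuSurjGlueH
import Fermat.Agent.ES1.G1Plan
import Fermat.Agent.ES1.RCFinal

/-!
# ES₁ / G1-S: `MuSurjH L M H` (helper83)

* `es1g1s_muSurjH_of_cuspExact` : `StmtCuspExactG Γ K_ℂ → MuSurjH L M H`;
* `es1g1s_muSurjH_of_bridge`    : `StmtCuspBridgeG Γ → MuSurjH L M H`
  (`Γ = gammaH L M H`, `K_ℂ = fieldC ℂ L M H`, `M ∣ L`, `L ≠ 0`).

Everything else (analytic half `es1g1s_an`, descent `es1g1sUC_exists_algebraic`, BCu, finiteness
over the `j`-line, `StmtAllG`, `StmtPtExactG`) is proved.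
-/

set_option autoImplicit false
set_option linter.style.haveILetI false

noncomputable section

namespace Fermat.Agent.ES1

open CongruenceSubgroup
open scoped MatrixGroups

variable {L M : ℕ} [NeZero L] {H : Subgroup (ZMod M)ˣ}

/-- **G1-S** from exactness at the cusps. -/
theorem es1g1s_muSurjH_of_cuspExact (hML : M ∣ L)
    (hCusp : @StmtCuspExactG (gammaH L M H) (fieldC ℂ L M H) _ _ (es1rcAlgebra hML H)) :
    MuSurjH L M H := by
  intro φ hφ n hn
  obtain ⟨x, hx, u, a, g, R, hK, hfrac, hpow, hmult⟩ :=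
    es1g1s_muSurj hML (es1rc_stmtAllG hML H) hCusp φ hφ n hn
  exact ⟨x, hx, u, a, g, R, hK, hfrac, hpow, hmult⟩

/-- **G1-S** from the analytic bridge at the cusps. -/
theorem es1g1s_muSurjH_of_bridge (hML : M ∣ L) (hbr : StmtCuspBridgeG (gammaH L M H)) :
    MuSurjH L M H :=
  es1g1s_muSurjH_of_cuspExact hML (es1rc_stmtCuspExactG_of_bridge hML H hbr)

end Fermat.Agent.ES1
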